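import Mathlib.Tactic.Ring
import Mathlib.Tactic.LinearCombination

/-! The icosahedral family (family of curves 5-congruent to a given one): explicit forms. -/

set_option autoImplicit false
set_option linter.unusedVariables false

namespace Fermat.Agent.S52x

variable {R : Type*} [CommRing R]

/-- coefficient of `t^0` -/
def c4c0 (a b : R) : R := a

/-- coefficient of `t^1` -/
def c4c1 (a b : R) : R := 20*b

/-- coefficient of `t^2` -/
def c4c2 (a b : R) : R := 190*a^2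

/-- coefficient of `t^3` -/
def c4c3 (a b : R) : R := 1140*a*b

/-- coefficient of `t^4` -/
def c4c4 (a b : R) : R := 5700*b^2 - 855*a^3

/-- coefficient of `t^5` -/
def c4c5 (a b : R) : R := 15504*a^2*b

/-- coefficient of `t^6` -/
def c4c6 (a b : R) : R := -63840*a*b^2 + 102600*a^4

/-- coefficient of `t^7` -/
def c4c7 (a b : R) : R := -182400*b^3 + 259920*a^3*b

/-- coefficient of `t^8` -/
def c4c8 (a b : R) : R := 1126320*a^2*b^2 - 1000350*a^5

/-- coefficient of `t^9` -/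
def c4c9 (a b : R) : R := 7904000*a*b^3 - 7736040*a^4*b

/-- coefficient of `t^10` -/
def c4c10 (a b : R) : R := 15808000*b^4 - 5619744*a^3*b^2 - 10003500*a^6

/-- coefficient of `t^11` -/
def c4c11 (a b : R) : R := 54853760*a^2*b^3 - 54685800*a^5*b

/-- coefficient of `t^12` -/
def c4c12 (a b : R) : R := 37939200*a*b^4 + 7202520*a^4*b^2 - 45015750*a^7

/-- coefficient of `t^13` -/
def c4c13 (a b : R) : R := 58368000*b^5 - 23201280*a^3*b^3 - 35089200*a^6*b

/-- coefficient of `t^14` -/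
def c4c14 (a b : R) : R := 287462400*a^2*b^4 - 495188640*a^5*b^2 + 207765000*a^8

/-- coefficient of `t^15` -/
def c4c15 (a b : R) : R := 466944000*a*b^5 - 882458496*a^4*b^3 + 415530000*a^7*b

/-- coefficient of `t^16` -/
def c4c16 (a b : R) : R := 583680000*b^6 - 1220474880*a^3*b^4 + 714711600*a^6*b^2 - 77911875*a^9

/-- coefficient of `t^17` -/
def c4c17 (a b : R) : R := 361881600*a^2*b^5 - 715080960*a^5*b^3 + 353200500*a^8*b

/-- coefficient of `t^18` -/
def c4c18 (a b : R) : R := -622592000*a*b^6 + 2026391040*a^4*b^4 - 2182917600*a^7*b^2 + 779118750*a^10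

/-- coefficient of `t^19` -/
def c4c19 (a b : R) : R := -655360000*b^7 + 2005401600*a^3*b^5 - 2044414080*a^6*b^3 + 694372500*a^9*b

/-- coefficient of `t^20` -/
def c4c20 (a b : R) : R := -180224000*a^2*b^6 + 544997376*a^5*b^4 - 549301500*a^8*b^2 + 184528125*a^11

/-- `c₄`-invariant of the family at parameter `t` -/
def C4p (a b t : R) : R :=
    c4c0 a b + c4c1 a b * t + c4c2 a b * t ^ 2 + c4c3 a b * t ^ 3 + c4c4 a b * t ^ 4 + c4c5 a b * t ^ 5 + c4c6 a b * t ^ 6 + c4c7 a b * t ^ 7 + c4c8 a b * t ^ 8 + c4c9 a b * t ^ 9 + c4c10 a b * t ^ 10 + c4c11 a b * t ^ 11 + c4c12 a b * t ^ 12 + c4c13 a b * t ^ 13 + c4c14 a b * t ^ 14 + c4c15 a b * t ^ 15 + c4c16 a b * t ^ 16 + c4c17 a b * t ^ 17 + c4c18 a b * t ^ 18 + c4c19 a b * t ^ 19 + c4c20 a b * t ^ 20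

/-- coefficient of `t^0` -/
def c6c0 (a b : R) : R := b

/-- coefficient of `t^1` -/
def c6c1 (a b : R) : R := 30*a^2

/-- coefficient of `t^2` -/
def c6c2 (a b : R) : R := 435*a*b

/-- coefficient of `t^3` -/
def c6c3 (a b : R) : R := 2900*b^2 + 1160*a^3

/-- coefficient of `t^4` -/
def c6c4 (a b : R) : R := 27405*a^2*b

/-- coefficient of `t^5` -/
def c6c5 (a b : R) : R := 46980*a*b^2 + 95526*a^4

/-- coefficient of `t^6` -/
def c6c6 (a b : R) : R := 156600*b^3 + 437175*a^3*b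

/-- coefficient of `t^7` -/
def c6c7 (a b : R) : R := 3915000*a^2*b^2 - 1879200*a^5

/-- coefficient of `t^8` -/
def c6c8 (a b : R) : R := 14407200*a*b^3 - 8554275*a^4*b

/-- coefficient of `t^9` -/
def c6c9 (a b : R) : R := 32016000*b^4 - 42021000*a^3*b^2 + 24312150*a^6

/-- coefficient of `t^10` -/
def c6c10 (a b : R) : R := -216588240*a^2*b^3 + 246633255*a^5*b

/-- coefficient of `t^11` -/
def c6c11 (a b : R) : R := -1459929600*a*b^4 + 1352475900*a^4*b^2 + 162081000*a^7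

/-- coefficient of `t^12` -/
def c6c12 (a b : R) : R := -2433216000*b^5 - 1612005600*a^3*b^3 + 4131714825*a^6*b

/-- coefficient of `t^13` -/
def c6c13 (a b : R) : R := -12044419200*a^2*b^4 + 5235216300*a^5*b^2 + 6928962750*a^8

/-- coefficient of `t^14` -/
def c6c14 (a b : R) : R := -43045111800*a^4*b^3 + 43190534475*a^7*b

/-- coefficient of `t^15` -/
def c6c15 (a b : R) : R := -79420170240*a^3*b^4 + 79575287760*a^6*b^2

/-- coefficient of `t^16` -/
def c6c16 (a b : R) : R := -297825638400*a^2*b^5 + 474659611200*a^5*b^3 - 176688550125*a^8*b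

/-- coefficient of `t^17` -/
def c6c17 (a b : R) : R := -700766208000*a*b^6 + 935084908800*a^4*b^4 + 77604382800*a^7*b^2 - 311803323750*a^10

/-- coefficient of `t^18` -/
def c6c18 (a b : R) : R := -778629120000*b^7 - 303665356800*a^3*b^5 + 2776512362400*a^6*b^3 - 1694131392375*a^9*b

/-- coefficient of `t^19` -/
def c6c19 (a b : R) : R := -4290656256000*a^2*b^6 + 8100765158400*a^5*b^4 - 3481840250100*a^8*b^2 - 328214025000*a^11

/-- coefficient of `t^20` -/
def c6c20 (a b : R) : R := -3442360320000*a*b^7 + 3892110842880*a^4*b^5 + 2424887357760*a^7*b^3 - 2874607835625*a^10*b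

/-- coefficient of `t^21` -/
def c6c21 (a b : R) : R := -3278438400000*b^8 + 5125838438400*a^3*b^6 - 2709129888000*a^6*b^4 + 3077188825500*a^9*b^2 - 2215444668750*a^12

/-- coefficient of `t^22` -/
def c6c22 (a b : R) : R := -4573421568000*a^2*b^7 + 7701051801600*a^5*b^5 - 1724509423800*a^8*b^3 - 1403114956875*a^11*b

/-- coefficient of `t^23` -/
def c6c23 (a b : R) : R := 6157762560000*a*b^8 - 30337884979200*a^4*b^6 + 49888700928000*a^7*b^4 - 33414470973000*a^10*b^2 + 7705894500000*a^13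

/-- coefficient of `t^24` -/
def c6c24 (a b : R) : R := 5131468800000*b^9 - 22779445248000*a^3*b^7 + 35246094796800*a^6*b^5 - 22687218914400*a^9*b^3 + 5089101159375*a^12*b

/-- coefficient of `t^25` -/
def c6c25 (a b : R) : R := -18216714240000*a^2*b^8 + 71274600677376*a^5*b^6 - 105528606261120*a^8*b^4 + 70097953635000*a^11*b^2 - 17627233668750*a^14

/-- coefficient of `t^26` -/
def c6c26 (a b : R) : R := -41051750400000*a*b^9 + 163803539865600*a^4*b^7 - 245438120632320*a^7*b^5 + 163672057566000*a^10*b^3 - 40985726371875*a^13*b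

/-- coefficient of `t^27` -/
def c6c27 (a b : R) : R := -30408704000000*b^10 + 111934439424000*a^3*b^8 - 143803576074240*a^6*b^6 + 63806176396800*a^9*b^4 + 8104032382500*a^12*b^2 - 9632368125000*a^15

/-- coefficient of `t^28` -/
def c6c28 (a b : R) : R := -21438136320000*a^2*b^9 + 85731449241600*a^5*b^7 - 128580522647040*a^8*b^5 + 85719228804000*a^11*b^3 - 21432019078125*a^14*b

/-- coefficient of `t^29` -/
def c6c29 (a b : R) : R := 5033164800000*a*b^10 - 31344427008000*a^4*b^8 + 75042714746880*a^7*b^6 - 87394892457600*a^10*b^4 + 49873523512500*a^13*b^2 - 11210083593750*a^16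

/-- coefficient of `t^30` -/
def c6c30 (a b : R) : R := 3355443200000*b^11 - 17532190720000*a^3*b^9 + 36574189977600*a^6*b^7 - 38083944628224*a^9*b^5 + 19796866155000*a^12*b^3 - 4110363984375*a^15*b

/-- `c₆`-invariant of the family at parameter `t` -/
def C6p (a b t : R) : R :=
    c6c0 a b + c6c1 a b * t + c6c2 a b * t ^ 2 + c6c3 a b * t ^ 3 + c6c4 a b * t ^ 4 + c6c5 a b * t ^ 5 + c6c6 a b * t ^ 6 + c6c7 a b * t ^ 7 + c6c8 a b * t ^ 8 + c6c9 a b * t ^ 9 + c6c10 a b * t ^ 10 + c6c11 a b * t ^ 11 + c6c12 a b * t ^ 12 + c6c13 a b * t ^ 13 + c6c14 a b * t ^ 14 + c6c15 a b * t ^ 15 + c6c16 a b * t ^ 16 + c6c17 a b * t ^ 17 + c6c18 a b * t ^ 18 + c6c19 a b * t ^ 19 + c6c20 a b * t ^ 20 + c6c21 a b * t ^ 21 + c6c22 a b * t ^ 22 + c6c23 a b * t ^ 23 + c6c24 a b * t ^ 24 + c6c25 a b * t ^ 25 + c6c26 a b * t ^ 26 + c6c27 a b * t ^ 27 + c6c28 a b * t ^ 28 + c6c29 a b * t ^ 29 + c6c30 a b * t ^ 30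

/-- coefficient of `t^2` -/
def dc2 (a b : R) : R := -66*a

/-- coefficient of `t^3` -/
def dc3 (a b : R) : R := -440*b

/-- coefficient of `t^4` -/
def dc4 (a b : R) : R := -1485*a^2

/-- coefficient of `t^5` -/
def dc5 (a b : R) : R := -3168*a*b

/-- coefficient of `t^6` -/
def dc6 (a b : R) : R := -10560*b^2 + 5940*a^3

/-- coefficient of `t^7` -/
def dc7 (a b : R) : R := -4752*a^2*b

/-- coefficient of `t^8` -/
def dc8 (a b : R) : R := 63360*a*b^2 - 66825*a^4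

/-- coefficient of `t^9` -/
def dc9 (a b : R) : R := 140800*b^3 - 142560*a^3*b

/-- coefficient of `t^10` -/
def dc10 (a b : R) : R := 133056*a^2*b^2 - 133650*a^5

/-- coefficient of `t^11` -/
def dc11 (a b : R) : R := 61440*a*b^3 - 61560*a^4*b

/-- coefficient of `t^12` -/
def dc12 (a b : R) : R := 102400*b^4 - 193536*a^3*b^2 + 91125*a^6

/-- the cusp form of degree 12 -/
def Dp (a b t : R) : R :=
    1 + dc2 a b * t ^ 2 + dc3 a b * t ^ 3 + dc4 a b * t ^ 4 + dc5 a b * t ^ 5 + dc6 a b * t ^ 6 + dc7 a b * t ^ 7 + dc8 a b * t ^ 8 + dc9 a b * t ^ 9 + dc10 a b * t ^ 10 + dc11 a b * t ^ 11 + dc12 a b * t ^ 12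

/-- coefficient of `t^1` -/
def Fc1 (B C : R) : R := 7*C^2 + 66*B*C - 5*B^2

/-- coefficient of `t^2` -/
def Fc2 (B C : R) : R := -38*C^4 - 264*B*C^3 + 1772*B^2*C^2 - 264*B^3*C + 10*B^4

/-- coefficient of `t^3` -/
def Fc3 (B C : R) : R := 62*C^6 + 396*B*C^5 - 966*B^2*C^4 + 24552*B^3*C^3 - 5358*B^4*C^2 + 396*B^5*C - 10*B^6

/-- coefficient of `t^4` -/
def Fc4 (B C : R) : R := -43*C^8 - 264*B*C^7 - 3364*B^2*C^6 - 48312*B^3*C^5 + 164046*B^4*C^4 - 48312*B^5*C^3 + 5372*B^6*C^2 - 264*B^7*C + 5*B^8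

/-- coefficient of `t^5` -/
def Fc5 (B C : R) : R := 11*C^10 + 66*B*C^9 + 2563*B^2*C^8 + 24024*B^3*C^7 - 80938*B^4*C^6 + 475596*B^5*C^5 - 163042*B^6*C^4 + 24024*B^7*C^3 - 1793*B^8*C^2 + 66*B^9*C - B^10

/-- `B_t / B` -/
def Fp (B C t : R) : R := 1 + Fc1 B C * t + Fc2 B C * t ^ 2 + Fc3 B C * t ^ 3 + Fc4 B C * t ^ 4 + Fc5 B C * t ^ 5

/-- coefficient of `t^1` -/
def Gc1 (B C : R) : R := -5*C^2 - 66*B*C + 7*B^2

/-- coefficient of `t^2` -/
def Gc2 (B C : R) : R := 10*C^4 + 264*B*C^3 + 1772*B^2*C^2 + 264*B^3*C - 38*B^4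

/-- coefficient of `t^3` -/
def Gc3 (B C : R) : R := -10*C^6 - 396*B*C^5 - 5358*B^2*C^4 - 24552*B^3*C^3 - 966*B^4*C^2 - 396*B^5*C + 62*B^6

/-- coefficient of `t^4` -/
def Gc4 (B C : R) : R := 5*C^8 + 264*B*C^7 + 5372*B^2*C^6 + 48312*B^3*C^5 + 164046*B^4*C^4 + 48312*B^5*C^3 - 3364*B^6*C^2 + 264*B^7*C - 43*B^8

/-- coefficient of `t^5` -/
def Gc5 (B C : R) : R := -C^10 - 66*B*C^9 - 1793*B^2*C^8 - 24024*B^3*C^7 - 163042*B^4*C^6 - 475596*B^5*C^5 - 80938*B^6*C^4 - 24024*B^7*C^3 + 2563*B^8*C^2 - 66*B^9*C + 11*B^10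

/-- `C_t / C` -/
def Gp (B C t : R) : R := 1 + Gc1 B C * t + Gc2 B C * t ^ 2 + Gc3 B C * t ^ 3 + Gc4 B C * t ^ 4 + Gc5 B C * t ^ 5

/-- `c₄` of the Tate curve with parameters `B, C` -/
def c4T (B C : R) : R := B^4 - 12*B^3*C + 14*B^2*C^2 + 12*B*C^3 + C^4

/-- `c₆` of the Tate curve with parameters `B, C` -/
def c6T (B C : R) : R := -B^6 + 18*B^5*C - 75*B^4*C^2 - 75*B^2*C^4 - 18*B*C^5 - C^6

/-- `Δ` of the Tate curve with parameters `B, C` -/
def dT (B C : R) : R := B^5*C^5*(B^2 - 11*B*C - C^2)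

/-- `B_t` -/
def Bt (B C t : R) : R := B * Fp B C t

/-- `C_t` -/
def Ct (B C t : R) : R := C * Gp B C t

end Fermat.Agent.S52x
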