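import Mathlib.AlgebraicGeometry.EllipticCurve.Affine.Point
import Fermat.Agent.S52.Defs

/-! Points of order five and the Tate normal form. -/

set_option autoImplicit false

namespace Fermat.Agent.S52x

open WeierstrassCurve

variable {F : Type*} [Field F] [DecidableEq F]

/-- The numbers `(x, y, m)` bring the curve `W` to the Tate normal form
`[C - B, -B*C, -B*C^2, 0, 0]`. -/
structure TateData {R : Type*} [CommRing R] (W : WeierstrassCurve R) (x y m B C : R) : Prop where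
  h1 : W.a₁ + 2 * m = C - B
  h2 : W.a₂ - m * W.a₁ + 3 * x - m ^ 2 = -(B * C)
  h3 : W.a₃ + x * W.a₁ + 2 * y = -(B * C ^ 2)
  h4 : W.a₄ - m * W.a₃ + 2 * x * W.a₂ - (y + x * m) * W.a₁ + 3 * x ^ 2 - 2 * m * y = 0
  h6 : W.a₆ + x * W.a₄ + x ^ 2 * W.a₂ + x ^ 3 - y * W.a₃ - y ^ 2 - x * y * W.a₁ = 0

theorem TateData.c₄ {R : Type*} [CommRing R] {W : WeierstrassCurve R} {x y m B C : R}
    (h : TateData W x y m B C) : W.c₄ = c4T B C := by
  obtain ⟨h1, h2, h3, h4, h6⟩ := h
  have e1 : W.a₁ = C - B - 2 * m := by linear_combination h1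
  have e2 : W.a₂ = -(B * C) + m * W.a₁ - 3 * x + m ^ 2 := by linear_combination h2
  have e3 : W.a₃ = -(B * C ^ 2) - x * W.a₁ - 2 * y := by linear_combination h3
  have e4 : W.a₄ = m * W.a₃ - 2 * x * W.a₂ + (y + x * m) * W.a₁ - 3 * x ^ 2 + 2 * m * y := by
    linear_combination h4
  simp only [WeierstrassCurve.c₄, WeierstrassCurve.b₂, WeierstrassCurve.b₄, c4T]
  rw [e4, e3, e2, e1]
  ring

theorem TateData.c₆ {R : Type*} [CommRing R] {W : WeierstrassCurve R} {x y m B C : R}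
    (h : TateData W x y m B C) : W.c₆ = c6T B C := by
  obtain ⟨h1, h2, h3, h4, h6⟩ := h
  have e1 : W.a₁ = C - B - 2 * m := by linear_combination h1
  have e2 : W.a₂ = -(B * C) + m * W.a₁ - 3 * x + m ^ 2 := by linear_combination h2
  have e3 : W.a₃ = -(B * C ^ 2) - x * W.a₁ - 2 * y := by linear_combination h3
  have e4 : W.a₄ = m * W.a₃ - 2 * x * W.a₂ + (y + x * m) * W.a₁ - 3 * x ^ 2 + 2 * m * y := by
    linear_combination h4
  have e6 : W.a₆ = - x * W.a₄ - x ^ 2 * W.a₂ - x ^ 3 + y * W.a₃ + y ^ 2 + x * y * W.a₁ := by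
    linear_combination h6
  simp only [WeierstrassCurve.c₆, WeierstrassCurve.b₂, WeierstrassCurve.b₄,
    WeierstrassCurve.b₆, c6T]
  rw [e6, e4, e3, e2, e1]
  ring

theorem TateData.Δ {R : Type*} [CommRing R] {W : WeierstrassCurve R} {x y m B C : R}
    (h : TateData W x y m B C) : W.Δ = dT B C := by
  obtain ⟨h1, h2, h3, h4, h6⟩ := h
  have e1 : W.a₁ = C - B - 2 * m := by linear_combination h1
  have e2 : W.a₂ = -(B * C) + m * W.a₁ - 3 * x + m ^ 2 := by linear_combination h2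
  have e3 : W.a₃ = -(B * C ^ 2) - x * W.a₁ - 2 * y := by linear_combination h3
  have e4 : W.a₄ = m * W.a₃ - 2 * x * W.a₂ + (y + x * m) * W.a₁ - 3 * x ^ 2 + 2 * m * y := by
    linear_combination h4
  have e6 : W.a₆ = - x * W.a₄ - x ^ 2 * W.a₂ - x ^ 3 + y * W.a₃ + y ^ 2 + x * y * W.a₁ := by
    linear_combination h6
  simp only [WeierstrassCurve.Δ, WeierstrassCurve.b₂, WeierstrassCurve.b₄,
    WeierstrassCurve.b₆, WeierstrassCurve.b₈, dT]
  rw [e6, e4, e3, e2, e1]
  ring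

omit [DecidableEq F] in
/-- Converse: `c₄` and `c₆` of Tate form determine the change of variables. -/
theorem tateData_of_c {W : WeierstrassCurve F} {B C x y m : F} (h2 : (2 : F) ≠ 0)
    (h3 : (3 : F) ≠ 0) (hc4 : W.c₄ = c4T B C) (hc6 : W.c₆ = c6T B C)
    (hm : 2 * m = C - B - W.a₁) (hx : 12 * x = (C - B) ^ 2 - 4 * (B * C) - W.b₂)
    (hy : 2 * y = -(B * C ^ 2) - W.a₃ - x * W.a₁) : TateData W x y m B C := by
  have h4 : (4 : F) ≠ 0 := by
    have : (4 : F) = 2 * 2 := by norm_num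
    rw [this]; exact mul_ne_zero h2 h2
  have h24 : (24 : F) ≠ 0 := by
    have : (24 : F) = 2 * 2 * 2 * 3 := by norm_num
    rw [this]; exact mul_ne_zero (mul_ne_zero (mul_ne_zero h2 h2) h2) h3
  have h216 : (216 : F) ≠ 0 := by
    have : (216 : F) = 2 * 2 * 2 * (3 * 3 * 3) := by norm_num
    rw [this]
    exact mul_ne_zero (mul_ne_zero (mul_ne_zero h2 h2) h2) (mul_ne_zero (mul_ne_zero h3 h3) h3)
  have k1 : W.a₁ + 2 * m = C - B := by linear_combination hm
  have k3 : W.a₃ + x * W.a₁ + 2 * y = -(B * C ^ 2) := by linear_combination hy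
  have k2 : W.a₂ - m * W.a₁ + 3 * x - m ^ 2 = -(B * C) := by
    apply mul_left_cancel₀ h4
    have hb2 : W.b₂ = W.a₁ ^ 2 + 4 * W.a₂ := rfl
    linear_combination hx - (W.a₁ + 2 * m + (C - B)) * k1 - hb2
  have hb4 : W.b₄ + x * W.b₂ + 6 * x ^ 2 = -((C - B) * (B * C ^ 2)) := by
    apply mul_left_cancel₀ h24
    have e : W.c₄ = W.b₂ ^ 2 - 24 * W.b₄ := rfl
    have e2 : c4T B C = ((C - B) ^ 2 - 4 * (B * C)) ^ 2 + 24 * ((C - B) * (B * C ^ 2)) := by
      simp only [c4T]; ring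
    linear_combination ((12 * x + W.b₂) + ((C - B) ^ 2 - 4 * (B * C))) * hx - hc4 + e - e2
  have hb6 : W.b₆ + 2 * x * W.b₄ + x ^ 2 * W.b₂ + 4 * x ^ 3 = (B * C ^ 2) ^ 2 := by
    apply mul_left_cancel₀ h216
    have e : W.c₆ = -W.b₂ ^ 3 + 36 * W.b₂ * W.b₄ - 216 * W.b₆ := rfl
    have e2 : c6T B C = -((C - B) ^ 2 - 4 * (B * C)) ^ 3
        + 36 * ((C - B) ^ 2 - 4 * (B * C)) * (-((C - B) * (B * C ^ 2)))
        - 216 * (B * C ^ 2) ^ 2 := by
      simp only [c6T]; ring
    have hb2 : (C - B) ^ 2 - 4 * (B * C) = 12 * x + W.b₂ := by linear_combination -hx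
    rw [← hb4, hb2] at e2
    linear_combination e - e2 - hc6
  have k4 : W.a₄ - m * W.a₃ + 2 * x * W.a₂ - (y + x * m) * W.a₁ + 3 * x ^ 2 - 2 * m * y = 0 := by
    apply mul_left_cancel₀ h2
    have e4 : W.b₄ = 2 * W.a₄ + W.a₁ * W.a₃ := rfl
    have e2 : W.b₂ = W.a₁ ^ 2 + 4 * W.a₂ := rfl
    linear_combination hb4 - e4 - x * e2 - (W.a₁ + 2 * m) * k3 + (B * C ^ 2) * k1
  have k6 : W.a₆ + x * W.a₄ + x ^ 2 * W.a₂ + x ^ 3 - y * W.a₃ - y ^ 2 - x * y * W.a₁ = 0 := by
    apply mul_left_cancel₀ h4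
    have e6 : W.b₆ = W.a₃ ^ 2 + 4 * W.a₆ := rfl
    have e4 : W.b₄ = 2 * W.a₄ + W.a₁ * W.a₃ := rfl
    have e2 : W.b₂ = W.a₁ ^ 2 + 4 * W.a₂ := rfl
    linear_combination hb6 - e6 - 2 * x * e4 - x ^ 2 * e2 -
      (W.a₃ + x * W.a₁ + 2 * y - B * C ^ 2) * k3
  exact ⟨k1, k2, k3, k4, k6⟩

open WeierstrassCurve.Affine in
/-- Explicit criterion for a point to be killed by `5`. -/
theorem five_nsmul_iff {W : WeierstrassCurve F} {x y m α1 α2 α3 : F}
    (h : W.toAffine.Nonsingular x y)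
    (h1 : W.a₁ + 2 * m = α1)
    (h2 : W.a₂ - m * W.a₁ + 3 * x - m ^ 2 = α2)
    (h3 : W.a₃ + x * W.a₁ + 2 * y = α3) (h30 : α3 ≠ 0)
    (h4 : W.a₄ - m * W.a₃ + 2 * x * W.a₂ - (y + x * m) * W.a₁ + 3 * x ^ 2 - 2 * m * y = 0) :
    5 • (Point.some x y h : W.toAffine.Point) = 0 ↔ α2 ^ 3 + α3 ^ 2 - α1 * α2 * α3 = 0 := by
  set P : W.toAffine.Point := Point.some x y h with hP
  have hP0 : P ≠ 0 := Point.some_ne_zero h
  have hy : y ≠ W.toAffine.negY x y := by
    intro hy
    apply h30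
    rw [Affine.negY] at hy
    rw [← h3]; linear_combination hy
  have hsl : W.toAffine.slope x x y y = m := by
    rw [slope_of_Y_ne rfl hy, Affine.negY]
    have hd : y - (-y - W.a₁ * x - W.a₃) = α3 := by rw [← h3]; ring
    rw [hd, div_eq_iff h30, ← h3]
    linear_combination h4
  obtain ⟨x2, y2, hh2, hD, hx2, hy2⟩ : ∃ (x2 y2 : F) (hh2 : W.toAffine.Nonsingular x2 y2),
      P + P = Point.some x2 y2 hh2 ∧ x2 = x - α2 ∧
        y2 = m * α2 - y - W.a₁ * (x - α2) - W.a₃ := by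
    refine ⟨_, _, _, Point.add_self_of_Y_ne (W := W.toAffine) (h₁ := h) hy, ?_, ?_⟩
    · rw [hsl, ← h2, Affine.addX]; ring
    · rw [hsl, ← h2, Affine.addY, Affine.negAddY, Affine.addX, Affine.negY]; ring
  have h5 : (5 : ℕ) • P = (P + P + P) + (P + P) := by abel
  have hD0 : P + P ≠ 0 := by rw [hD]; exact Point.some_ne_zero _
  rw [h5]
  by_cases hα2 : α2 = 0
  · have hx : x2 = x := by rw [hx2, hα2]; ring
    have hneg : P + P = -P := by
      rcases (Point.X_eq_iff (h₁ := hh2) (h₂ := h)).1 hx with h' | h'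
      · rw [← hD, ← hP] at h'
        exact absurd (left_eq_add.1 h'.symm) hP0
      · rw [← hD, ← hP] at h'
        exact h'
    constructor
    · intro h'
      exfalso
      rw [hneg] at h'
      have h'' : -P = 0 := by rw [← h']; abel
      exact hP0 (neg_eq_zero.1 h'')
    · intro h'
      exfalso
      rw [hα2] at h'
      apply h30
      have : α3 ^ 2 = 0 := by linear_combination h'
      exact pow_eq_zero_iff (two_ne_zero) |>.1 this
  · have hx : x2 ≠ x := by
      rw [hx2]; intro h'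
      apply hα2; linear_combination -h'
    obtain ⟨x3, y3, hh3, hT, hx3⟩ : ∃ (x3 y3 : F) (hh3 : W.toAffine.Nonsingular x3 y3),
        P + P + P = Point.some x3 y3 hh3 ∧
          x3 = W.toAffine.addX x2 x (W.toAffine.slope x2 x y2 y) := by
      rw [hD]
      exact ⟨_, _, _, Point.add_of_X_ne hx, rfl⟩
    have key : α2 ^ 2 * (x3 - x2) = α2 ^ 3 + α3 ^ 2 - α1 * α2 * α3 := by
      have hs : W.toAffine.slope x2 x y2 y = m + (α3 / α2 - α1) := by
        have hd : x - α2 - x = -α2 := by ring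
        rw [slope_of_X_ne hx, hx2, hy2, hd, ← h1, ← h3]
        field_simp
        ring
      rw [hx3, hs, Affine.addX, hx2]
      field_simp
      rw [← h1, ← h2]
      ring
    constructor
    · intro h'
      have hTD : P + P + P = -(P + P) := eq_neg_of_add_eq_zero_left h'
      have : x3 = x2 := (Point.X_eq_iff (h₁ := hh3) (h₂ := hh2)).2 (Or.inr (by rw [← hT, ← hD, hTD]))
      rw [← key, this]; ring
    · intro h'
      have h0 : x3 = x2 := by
        have : α2 ^ 2 * (x3 - x2) = 0 := by rw [key, h']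
        rcases mul_eq_zero.1 this with h'' | h''
        · exact absurd (pow_eq_zero_iff (two_ne_zero) |>.1 h'') hα2
        · linear_combination h''
      rcases (Point.X_eq_iff (h₁ := hh3) (h₂ := hh2)).1 h0 with h'' | h''
      · rw [← hT, ← hD] at h''
        exact absurd (add_eq_left.1 h'') hP0
      · rw [← hT, ← hD] at h''
        rw [h'']; simp

open WeierstrassCurve.Affine in
theorem exists_tateData {W : WeierstrassCurve F} {x y : F} (h : W.toAffine.Nonsingular x y)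
    (h5 : 5 • (Point.some x y h : W.toAffine.Point) = 0) :
    ∃ m B C : F, B ≠ 0 ∧ C ≠ 0 ∧ TateData W x y m B C := by
  have h30 : W.a₃ + x * W.a₁ + 2 * y ≠ 0 := by
    intro h0
    have hy : y = W.toAffine.negY x y := by
      rw [Affine.negY]; linear_combination h0
    have h2 : (Point.some x y h : W.toAffine.Point) + Point.some x y h = 0 :=
      Point.add_self_of_Y_eq hy
    have h5' : 5 • (Point.some x y h : W.toAffine.Point) =
        (Point.some x y h + Point.some x y h) + (Point.some x y h + Point.some x y h) +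
          Point.some x y h := by abel
    rw [h2, h5] at h5'
    simp only [zero_add] at h5'
    exact Point.some_ne_zero h h5'.symm
  set α3 := W.a₃ + x * W.a₁ + 2 * y with h3
  set m : F := (W.a₄ + 2 * x * W.a₂ - y * W.a₁ + 3 * x ^ 2) / α3 with hm
  have h4 : W.a₄ - m * W.a₃ + 2 * x * W.a₂ - (y + x * m) * W.a₁ + 3 * x ^ 2 - 2 * m * y = 0 := by
    have : m * α3 = W.a₄ + 2 * x * W.a₂ - y * W.a₁ + 3 * x ^ 2 := by
      rw [hm]; field_simp
    rw [h3] at this
    linear_combination -this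
  have key := (five_nsmul_iff (α1 := W.a₁ + 2 * m)
    (α2 := W.a₂ - m * W.a₁ + 3 * x - m ^ 2) h rfl rfl h3.symm h30 h4).1 h5
  set α1 := W.a₁ + 2 * m with h1
  set α2 := W.a₂ - m * W.a₁ + 3 * x - m ^ 2 with h2
  have h20 : α2 ≠ 0 := by
    intro h0
    rw [h0] at key
    have : α3 ^ 2 = 0 := by linear_combination key
    exact h30 (pow_eq_zero_iff (two_ne_zero) |>.1 this)
  refine ⟨m, -(α2 ^ 2 / α3), α3 / α2, ?_, ?_, ?_, ?_, ?_, h4, ?_⟩
  · exact neg_ne_zero.2 (div_ne_zero (pow_ne_zero _ h20) h30)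
  · exact div_ne_zero h30 h20
  · rw [← h1]
    field_simp
    linear_combination -key
  · rw [← h2]
    field_simp
  · rw [← h3]
    field_simp
  · have := (W.toAffine.equation_iff x y).1 h.1
    linear_combination -this

open WeierstrassCurve.Affine in
theorem TateData.five_nsmul {W : WeierstrassCurve F} {x y m B C : F}
    (hT : TateData W x y m B C) (hB : B ≠ 0) (hC : C ≠ 0) (h : W.toAffine.Nonsingular x y) :
    5 • (Point.some x y h : W.toAffine.Point) = 0 := by
  rw [five_nsmul_iff h hT.h1 hT.h2 hT.h3 (neg_ne_zero.2 (mul_ne_zero hB (pow_ne_zero _ hC))) hT.h4]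
  ring

omit [DecidableEq F] in
theorem TateData.nonsingular {W : WeierstrassCurve F} {x y m B C : F}
    (hT : TateData W x y m B C) (hΔ : W.Δ ≠ 0) : W.toAffine.Nonsingular x y := by
  rw [← W.toAffine.equation_iff_nonsingular_of_Δ_ne_zero hΔ, W.toAffine.equation_iff]
  linear_combination -hT.h6

end Fermat.Agent.S52x
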