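import Fermat.Agent.S52.IdC6
import Fermat.Agent.S52.Tate
import Fermat.Agent.Torsion.Card
import Fermat.Prelude.Def_FLTPrelim_Modularity

/-! Semistability of the family. -/

set_option autoImplicit false

namespace Fermat.Agent.S52x

open WeierstrassCurve

section field

variable {F : Type*} [Field F]

theorem eq_zero_of_cT {B C : F} (h2 : (2 : F) ≠ 0) (h3 : (3 : F) ≠ 0) (h5 : (5 : F) ≠ 0)
    (h4T : c4T B C = 0) (h6T : c6T B C = 0) : B = 0 ∧ C = 0 := by
  have h1728 : (1728 : F) ≠ 0 := by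
    have : (1728 : F) = 2 ^ 6 * 3 ^ 3 := by norm_num
    rw [this]; exact mul_ne_zero (pow_ne_zero _ h2) (pow_ne_zero _ h3)
  have hd : dT B C = 0 := by
    have := rel_T B C
    rw [h4T, h6T] at this
    have h : (1728 : F) * dT B C = 0 := by rw [← this]; ring
    rcases mul_eq_zero.1 h with h | h
    · exact absurd h h1728
    · exact h
  have h4' : c4T B C = (B ^ 2 - 11 * B * C - C ^ 2) * (B ^ 2 - B * C + 4 * C ^ 2) +
      5 * C ^ 3 * (11 * B + C) := by
    simp only [c4T]; ring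
  rw [dT] at hd
  rcases mul_eq_zero.1 hd with hd | hd
  · rcases mul_eq_zero.1 hd with hd | hd
    · have hB : B = 0 := by simpa using hd
      subst hB
      refine ⟨rfl, ?_⟩
      have : C ^ 4 = 0 := by rw [← h4T]; simp only [c4T]; ring
      simpa using this
    · have hC : C = 0 := by simpa using hd
      subst hC
      refine ⟨?_, rfl⟩
      have : B ^ 4 = 0 := by rw [← h4T]; simp only [c4T]; ring
      simpa using this
  · rw [h4', hd, zero_mul, zero_add] at h4T
    rcases mul_eq_zero.1 h4T with h | h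
    · have hC : C = 0 := by
        rcases mul_eq_zero.1 h with h | h
        · exact absurd h h5
        · simpa using h
      subst hC
      refine ⟨?_, rfl⟩
      have : B ^ 2 = 0 := by rw [← hd]; ring
      simpa using this
    · have hC : C = -11 * B := by linear_combination h
      rw [hC] at hd
      have : B ^ 2 = 0 := by linear_combination hd
      have hB : B = 0 := by simpa using this
      exact ⟨hB, by rw [hC, hB]; ring⟩

theorem Bt_Ct_ne_zero {B C t : F} (h2 : (2 : F) ≠ 0) (h3 : (3 : F) ≠ 0) (h5 : (5 : F) ≠ 0)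
    (hd : dT B C ≠ 0) (hB : Bt B C t = 0) (hC : Ct B C t = 0) : False := by
  have e1 := lin1 B C t
  have e2 := lin2 B C t
  have e3 := PQ5 B C t
  rw [hB, hC] at e1
  rw [hC] at e2
  have hq : B ^ 2 - 11 * B * C - C ^ 2 ≠ 0 := fun h => hd (by rw [dT, h, mul_zero])
  have hB0 : B ≠ 0 := fun h => hd (by rw [dT, h]; ring)
  have hC0 : C ≠ 0 := fun h => hd (by rw [dT, h]; ring)
  have h4 : (4 : F) ≠ 0 := by
    have : (4 : F) = 2 * 2 := by norm_num
    rw [this]; exact mul_ne_zero h2 h2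
  have hP : P5 B C t = 0 := by
    have : 4 * (B ^ 2 - 11 * B * C - C ^ 2) * P5 B C t = 0 := by
      linear_combination -(2 * B - 11 * C) * e1 + 5 * 5 * C * e2
    rcases mul_eq_zero.1 this with h | h
    · exact absurd h (mul_ne_zero h4 hq)
    · exact h
  have hQ : Q5 B C t = 0 := by
    have : 4 * (B ^ 2 - 11 * B * C - C ^ 2) * Q5 B C t = 0 := by
      linear_combination -(2 * B - 11 * C) * e2 + 5 * C * e1
    rcases mul_eq_zero.1 this with h | h
    · exact absurd h (mul_ne_zero h4 hq)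
    · exact h
  rw [hP, hQ] at e3
  have hE : Ep B C t = 0 := by
    have : Ep B C t ^ 5 = 0 := by rw [← e3]; ring
    simpa using this
  set X : F := 1 - (B ^ 2 + C ^ 2) * t with hX
  set Z : F := 6 * B * C * t with hZ
  have hE' : X ^ 2 = 5 * Z ^ 2 := by
    have : Ep B C t = X ^ 2 - 5 * Z ^ 2 := by rw [Ep, hX, hZ]; ring
    rw [this] at hE
    linear_combination hE
  have hP' : X * Z ^ 4 = 0 := by
    have : P5 B C t = X * (X ^ 2 * X ^ 2 + 50 * X ^ 2 * Z ^ 2 + 125 * Z ^ 4) := by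
      rw [P5, ← hX, ← hZ]; ring
    rw [this, hE'] at hP
    have h400 : (400 : F) * (X * Z ^ 4) = 0 := by linear_combination hP
    have h400' : (400 : F) ≠ 0 := by
      have : (400 : F) = 2 ^ 4 * 5 ^ 2 := by norm_num
      rw [this]; exact mul_ne_zero (pow_ne_zero _ h2) (pow_ne_zero _ h5)
    rcases mul_eq_zero.1 h400 with h | h
    · exact absurd h h400'
    · exact h
  have hZ0 : Z = 0 := by
    rcases mul_eq_zero.1 hP' with h | h
    · rw [h] at hE'
      have : 5 * Z ^ 2 = 0 := by rw [← hE']; ring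
      rcases mul_eq_zero.1 this with h | h
      · exact absurd h h5
      · simpa using h
    · simpa using h
  have hX0 : X = 0 := by
    rw [hZ0] at hE'
    have : X ^ 2 = 0 := by rw [hE']; ring
    simpa using this
  have h6 : (6 : F) ≠ 0 := by
    have : (6 : F) = 2 * 3 := by norm_num
    rw [this]; exact mul_ne_zero h2 h3
  have ht : t = 0 := by
    rw [hZ0] at hZ
    have : 6 * B * C * t = 0 := hZ.symm
    rcases mul_eq_zero.1 this with h | h
    · exact absurd h (mul_ne_zero (mul_ne_zero h6 hB0) hC0)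
    · exact h
  rw [hX0, ht] at hX
  simp at hX

theorem not_both_zero {B C t : F} (h2 : (2 : F) ≠ 0) (h3 : (3 : F) ≠ 0) (h5 : (5 : F) ≠ 0)
    (hd : dT B C ≠ 0) (h4T : C4p (c4T B C) (c6T B C) t = 0)
    (h6T : C6p (c4T B C) (c6T B C) t = 0) : False := by
  rw [C4p_T] at h4T
  rw [C6p_T] at h6T
  obtain ⟨hB, hC⟩ := eq_zero_of_cT h2 h3 h5 h4T h6T
  exact Bt_Ct_ne_zero h2 h3 h5 hd hB hC

end field

/-- Over an algebraically closed field of characteristic `≠ 5` every elliptic curve has a point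
of order `5`, hence Tate data. -/
theorem exists_tateData_of_isAlgClosed {K : Type*} [Field K] [IsAlgClosed K]
    {W : WeierstrassCurve K} (hΔ : W.Δ ≠ 0) (h5 : (5 : K) ≠ 0) :
    ∃ x y m B C : K, B ≠ 0 ∧ C ≠ 0 ∧ TateData W x y m B C := by
  classical
  have hcard := Fermat.Agent.Torsion.card_torsion hΔ (n := 5) (by exact_mod_cast h5)
  have hne : ∃ P : W.toAffine.Point, 5 • P = 0 ∧ P ≠ 0 := by
    by_contra hcon
    push Not at hcon
    have hsub : Subsingleton {P : W.toAffine.Point // 5 • P = 0} :=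
      ⟨fun P Q => Subtype.ext (by rw [hcon P.1 P.2, hcon Q.1 Q.2])⟩
    have := Finite.card_le_one_iff_subsingleton (α := {P : W.toAffine.Point // 5 • P = 0})
    rw [this.2 hsub |>.antisymm (by rw [hcard]; norm_num)] at hcard
    norm_num at hcard
  obtain ⟨P, hP5, hP0⟩ := hne
  rcases P with _ | ⟨x, y, h⟩
  · exact absurd rfl hP0
  obtain ⟨m, B, C, hB, hC, hT⟩ := exists_tateData h hP5
  exact ⟨x, y, m, B, C, hB, hC, hT⟩

theorem not_both_zero_alg {K : Type*} [Field K] [IsAlgClosed K]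
    {W : WeierstrassCurve K} (hΔ : W.Δ ≠ 0) (h2 : (2 : K) ≠ 0) (h3 : (3 : K) ≠ 0)
    (h5 : (5 : K) ≠ 0) (m : K) (h4T : (famCurve W m).c₄ = 0) (h6T : (famCurve W m).c₆ = 0) :
    False := by
  obtain ⟨x, y, n, B, C, hB, hC, hT⟩ := exists_tateData_of_isAlgClosed hΔ h5
  rw [famCurve_c₄, hT.c₄, hT.c₆] at h4T
  rw [famCurve_c₆, hT.c₄, hT.c₆] at h6T
  exact not_both_zero h2 h3 h5 (hT.Δ ▸ hΔ) h4T h6T

theorem dvd_c₄_sub (W : WeierstrassCurve ℤ) (m : ℤ) : m ∣ (famCurve W m).c₄ - W.c₄ := by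
  rw [famCurve_c₄, C4p_eq]
  exact ⟨1728 * G4 W.c₄ W.c₆ (1728 * m), by ring⟩

theorem dvd_Dp_sub (a b m : ℤ) : m ∣ Dp a b (1728 * m) - 1 := by
  have h : Dp a b (1728 * m) - 1 = (1728 * m) * (1728 * m) * (dc2 a b + dc3 a b * (1728 * m)
      + dc4 a b * (1728 * m) ^ 2 + dc5 a b * (1728 * m) ^ 3 + dc6 a b * (1728 * m) ^ 4
      + dc7 a b * (1728 * m) ^ 5 + dc8 a b * (1728 * m) ^ 6 + dc9 a b * (1728 * m) ^ 7
      + dc10 a b * (1728 * m) ^ 8 + dc11 a b * (1728 * m) ^ 9 + dc12 a b * (1728 * m) ^ 10) := by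
    generalize (1728 * m) = t
    simp only [Dp]
    ring
  rw [h]
  exact ⟨1728 * (1728 * m) * (dc2 a b + dc3 a b * (1728 * m)
      + dc4 a b * (1728 * m) ^ 2 + dc5 a b * (1728 * m) ^ 3 + dc6 a b * (1728 * m) ^ 4
      + dc7 a b * (1728 * m) ^ 5 + dc8 a b * (1728 * m) ^ 6 + dc9 a b * (1728 * m) ^ 7
      + dc10 a b * (1728 * m) ^ 8 + dc11 a b * (1728 * m) ^ 9 + dc12 a b * (1728 * m) ^ 10),
      by ring⟩

theorem famCurve_Δ_ne_zero {W : WeierstrassCurve ℤ} (hΔ : W.Δ ≠ 0) (s : ℤ) :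
    (famCurve W (30 * W.Δ * s)).Δ ≠ 0 := by
  rw [famCurve_Δ_int]
  refine mul_ne_zero hΔ (pow_ne_zero _ ?_)
  intro h
  obtain ⟨c, hc⟩ := dvd_Dp_sub W.c₄ W.c₆ (30 * W.Δ * s)
  rw [h] at hc
  have : (30 : ℤ) ∣ 1 := ⟨-(W.Δ * s * c), by linear_combination -hc⟩
  norm_num at this

/-- All members of the family over the integers are semistable. -/
theorem famCurve_semistable {W : WeierstrassCurve ℤ} (hΔ : W.Δ ≠ 0) (hW : W.IsSemistableModel)
    (s : ℤ) : (famCurve W (30 * W.Δ * s)).IsSemistableModel := by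
  intro p hp hpΔ hpc
  set m : ℤ := 30 * W.Δ * s with hm
  have hpp : Prime (p : ℤ) := Nat.prime_iff_prime_int.1 hp
  by_cases hpm : (p : ℤ) ∣ 30 * W.Δ
  · have hpm' : (p : ℤ) ∣ m := hpm.mul_right s
    have h1 : (p : ℤ) ∣ W.c₄ := by
      have := hpm'.trans (dvd_c₄_sub W m)
      have h := dvd_sub hpc this
      simpa using h
    have h2 : (p : ℤ) ∣ W.Δ := by
      rw [famCurve_Δ_int] at hpΔ
      rcases hpp.dvd_or_dvd hpΔ with h | h
      · exact h
      · exfalso
        have h := hpp.dvd_of_dvd_pow h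
        have h' := dvd_sub h (hpm'.trans (dvd_Dp_sub W.c₄ W.c₆ m))
        have : (p : ℤ) ∣ 1 := by simpa using h'
        exact hpp.not_isUnit (isUnit_of_dvd_one this)
    exact hW p hp h2 h1
  · haveI := Fact.mk hp
    let K := AlgebraicClosure (ZMod p)
    have : CharP K p := charP_of_injective_algebraMap
      (FaithfulSMul.algebraMap_injective (ZMod p) K) p
    have hz : ∀ n : ℤ, ((n : K) = 0 ↔ (p : ℤ) ∣ n) := fun n => CharP.intCast_eq_zero_iff K p n
    have hcast : ∀ n : ℤ, n ∣ 30 * W.Δ → (n : K) ≠ 0 := by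
      intro n hn h0
      exact hpm (((hz n).1 h0).trans hn)
    have h2 : (2 : K) ≠ 0 := by
      have := hcast 2 ⟨15 * W.Δ, by ring⟩
      exact_mod_cast this
    have h3 : (3 : K) ≠ 0 := by
      have := hcast 3 ⟨10 * W.Δ, by ring⟩
      exact_mod_cast this
    have h5 : (5 : K) ≠ 0 := by
      have := hcast 5 ⟨6 * W.Δ, by ring⟩
      exact_mod_cast this
    have hΔK : (W.map (Int.castRingHom K)).Δ ≠ 0 := by
      rw [WeierstrassCurve.map_Δ]
      exact hcast W.Δ ⟨30, by ring⟩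
    have hpc6 : (p : ℤ) ∣ (famCurve W m).c₆ := by
      have hr := (famCurve W m).c_relation
      have : (p : ℤ) ∣ (famCurve W m).c₆ ^ 2 := by
        have e : (famCurve W m).c₆ ^ 2 = (famCurve W m).c₄ ^ 3 - 1728 * (famCurve W m).Δ := by
          linear_combination hr
        rw [e]
        exact dvd_sub (dvd_pow hpc (by norm_num)) (hpΔ.mul_left _)
      exact hpp.dvd_of_dvd_pow this
    refine not_both_zero_alg hΔK h2 h3 h5 (Int.castRingHom K m) ?_ ?_
    · rw [← map_famCurve, WeierstrassCurve.map_c₄]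
      exact (hz _).2 hpc
    · rw [← map_famCurve, WeierstrassCurve.map_c₆]
      exact (hz _).2 hpc6

end Fermat.Agent.S52x
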