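import Fermat.Agent.S52.Lift
import Fermat.Agent.S52.Semistable
import Fermat.Agent.ECFrob.Main

/-! The congruence modulo `5` between the traces of Frobenius in the family. -/

set_option autoImplicit false

open WeierstrassCurve WeierstrassCurve.Affine WeierstrassCurve.Affine.Point

namespace Fermat.Agent.S52x

open Fermat.Agent.ECFrob

section rel

variable {k : Type*} [Field k] [DecidableEq k] {W E' : WeierstrassCurve k}

theorem Rel.five {m : k} (hE' : E' = famCurve W m) (h2 : (2 : k) ≠ 0) (h3 : (3 : k) ≠ 0)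
    (hΔ' : E'.Δ ≠ 0) {P : W.toAffine.Point} {Q : E'.toAffine.Point} (h : Rel W E' m P Q) :
    5 • Q = 0 := by
  subst hE'
  rcases h with ⟨-, hQ⟩ | ⟨x, y, n, B, C, h, h', hB, hC, hT, hP, hQ⟩
  · rw [hQ]; simp
  · subst hQ
    have hT' := hT.fam h2 h3 m
    have hd := hT'.Δ
    rw [hd] at hΔ'
    exact hT'.five_nsmul (fun h0 => hΔ' (by rw [h0, dT]; ring))
      (fun h0 => hΔ' (by rw [h0, dT]; ring)) h'

theorem Rel.exists' {m : k} (hE' : E' = famCurve W m) (h2 : (2 : k) ≠ 0) (h3 : (3 : k) ≠ 0)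
    (hΔ' : E'.Δ ≠ 0) {P : W.toAffine.Point} (hP : 5 • P = 0) :
    ∃ Q : E'.toAffine.Point, Rel W E' m P Q := by
  subst hE'
  exact Rel.exists h2 h3 hΔ' hP

theorem Rel.add' {m : k} (hE' : E' = famCurve W m) (hΔ : W.Δ ≠ 0) (h2 : (2 : k) ≠ 0)
    (h3 : (3 : k) ≠ 0) (h5 : (5 : k) ≠ 0) (hΔ' : E'.Δ ≠ 0) {P P' : W.toAffine.Point}
    {Q Q' : E'.toAffine.Point} (hP : 5 • P = 0) (hP' : 5 • P' = 0)
    (h : Rel W E' m P Q) (h' : Rel W E' m P' Q') : Rel W E' m (P + P') (Q + Q') := by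
  subst hE'
  exact Rel.add hΔ h2 h3 h5 hΔ' hP hP' h h'

theorem Rel.neg {m : k} (hE' : E' = famCurve W m) (hΔ : W.Δ ≠ 0) (h2 : (2 : k) ≠ 0)
    (h3 : (3 : k) ≠ 0) (h5 : (5 : k) ≠ 0) (hΔ' : E'.Δ ≠ 0) {P : W.toAffine.Point}
    {Q : E'.toAffine.Point} (hP : 5 • P = 0) (h : Rel W E' m P Q) : Rel W E' m (-P) (-Q) := by
  have hP' : 5 • (-P) = 0 := by rw [smul_neg, hP, _root_.neg_zero]
  obtain ⟨Q', hQ'⟩ := Rel.exists' hE' h2 h3 hΔ' hP'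
  have := Rel.add' hE' hΔ h2 h3 h5 hΔ' hP hP' h hQ'
  rw [add_neg_cancel] at this
  have h0 := this.eq_zero
  rwa [← eq_neg_of_add_eq_zero_right h0]

theorem Rel.nsmul {m : k} (hE' : E' = famCurve W m) (hΔ : W.Δ ≠ 0) (h2 : (2 : k) ≠ 0)
    (h3 : (3 : k) ≠ 0) (h5 : (5 : k) ≠ 0) (hΔ' : E'.Δ ≠ 0) {P : W.toAffine.Point}
    {Q : E'.toAffine.Point} (hP : 5 • P = 0) (h : Rel W E' m P Q) (n : ℕ) :
    Rel W E' m (n • P) (n • Q) := by
  induction n with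
  | zero => simpa using Rel.zero
  | succ n ih =>
    rw [succ_nsmul, succ_nsmul]
    refine Rel.add' hE' hΔ h2 h3 h5 hΔ' ?_ hP ih h
    rw [← mul_nsmul', mul_nsmul, hP, smul_zero]

theorem Rel.zsmul {m : k} (hE' : E' = famCurve W m) (hΔ : W.Δ ≠ 0) (h2 : (2 : k) ≠ 0)
    (h3 : (3 : k) ≠ 0) (h5 : (5 : k) ≠ 0) (hΔ' : E'.Δ ≠ 0) {P : W.toAffine.Point}
    {Q : E'.toAffine.Point} (hP : 5 • P = 0) (h : Rel W E' m P Q) (n : ℤ) :
    Rel W E' m (n • P) (n • Q) := by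
  rcases n.eq_nat_or_neg with ⟨j, rfl | rfl⟩
  · simpa using Rel.nsmul hE' hΔ h2 h3 h5 hΔ' hP h j
  · have hj := Rel.nsmul hE' hΔ h2 h3 h5 hΔ' hP h j
    rw [neg_smul, neg_smul, natCast_zsmul, natCast_zsmul]
    refine Rel.neg hE' hΔ h2 h3 h5 hΔ' ?_ hj
    rw [← mul_nsmul', mul_nsmul, hP, smul_zero]

end rel

section frob

variable {k₀ : Type*} [Field k₀] [Fintype k₀] {K : Type*} [Field K] [DecidableEq K] [Algebra k₀ K]

theorem Rel.frob {W₀ V₀ : Affine k₀} (m₀ : k₀) {P : (W₀⁄K).Point} {Q : (V₀⁄K).Point}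
    (h : Rel (W₀⁄K) (V₀⁄K) (algebraMap k₀ K m₀) P Q) :
    Rel (W₀⁄K) (V₀⁄K) (algebraMap k₀ K m₀) (Fermat.Agent.ECFrob.frob W₀ K P)
      (Fermat.Agent.ECFrob.frob V₀ K Q) := by
  rcases h with ⟨hP, hQ⟩ | ⟨x, y, n, B, C, h, h', hB, hC, hT, hP, hQ⟩
  · rw [hP, hQ, _root_.map_zero, _root_.map_zero]
    exact Rel.zero
  · subst hP hQ
    rw [frob_some, frob_some]
    set f : K →+* K := (FiniteField.frobeniusAlgHom k₀ K : K →+* K) with hf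
    have hf' : ∀ z, FiniteField.frobeniusAlgHom k₀ K z = f z := fun z => rfl
    have hfa : ∀ c : k₀, f (algebraMap k₀ K c) = algebraMap k₀ K c := fun c =>
      (FiniteField.frobeniusAlgHom k₀ K).commutes c
    have hW : WeierstrassCurve.map (W₀⁄K) f = (W₀⁄K) := by
      ext <;> simp [WeierstrassCurve.baseChange, WeierstrassCurve.map, hfa]
    have hTf := hT.map f
    rw [hW] at hTf
    have ha1 : f (W₀⁄K).a₁ = (W₀⁄K).a₁ := by rw [← WeierstrassCurve.map_a₁, hW]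
    have ha3 : f (W₀⁄K).a₃ = (W₀⁄K).a₃ := by rw [← WeierstrassCurve.map_a₃, hW]
    have hb2 : f (W₀⁄K).b₂ = (W₀⁄K).b₂ := by rw [← WeierstrassCurve.map_b₂, hW]
    have h12 : f 12⁻¹ = 12⁻¹ := by rw [map_inv₀, map_ofNat]
    have ht : f (1728 * algebraMap k₀ K m₀) = 1728 * algebraMap k₀ K m₀ := by
      rw [map_mul, map_ofNat, hfa]
    have eX : f (lX 12⁻¹ (W₀⁄K).b₂ B C (1728 * algebraMap k₀ K m₀)) =
        lX 12⁻¹ (W₀⁄K).b₂ (f B) (f C) (1728 * algebraMap k₀ K m₀) := by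
      rw [map_lX, h12, hb2, ht]
    have eY : f (lY 12⁻¹ (W₀⁄K).a₁ (W₀⁄K).a₃ (W₀⁄K).b₂ B C (1728 * algebraMap k₀ K m₀)) =
        lY 12⁻¹ (W₀⁄K).a₁ (W₀⁄K).a₃ (W₀⁄K).b₂ (f B) (f C) (1728 * algebraMap k₀ K m₀) := by
      rw [map_lY, h12, ha1, ha3, hb2, ht]
    refine Or.inr ⟨f x, f y, f n, f B, f C, _, ?_, (map_ne_zero f).2 hB, (map_ne_zero f).2 hC,
      hTf, rfl, ?_⟩
    · rw [← eX, ← eY]
      exact (V₀.baseChange_nonsingular (f := FiniteField.frobeniusAlgHom k₀ K)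
        (FiniteField.frobeniusAlgHom k₀ K).injective ..).mpr h'
    · simp only [hf', eX, eY]

end frob

section trace

theorem trace_congr {k₀ : Type*} [Field k₀] [Fintype k₀] {W₀ : WeierstrassCurve k₀} {m₀ : k₀}
    (hΔ : W₀.Δ ≠ 0) (hΔ' : (famCurve W₀ m₀).Δ ≠ 0) (h2 : (2 : k₀) ≠ 0) (h3 : (3 : k₀) ≠ 0)
    (h5 : (5 : k₀) ≠ 0) :
    (5 : ℤ) ∣ (famCurve W₀ m₀).traceOfFrobenius - W₀.traceOfFrobenius := by
  classical
  let K := AlgebraicClosure k₀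
  set V₀ : WeierstrassCurve k₀ := famCurve W₀ m₀ with hV₀
  have hinj := (algebraMap k₀ K).injective
  have h2K : (2 : K) ≠ 0 := by
    rw [← map_ofNat (algebraMap k₀ K) 2]; exact (map_ne_zero _).2 h2
  have h3K : (3 : K) ≠ 0 := by
    rw [← map_ofNat (algebraMap k₀ K) 3]; exact (map_ne_zero _).2 h3
  have h5K : (5 : K) ≠ 0 := by
    rw [← map_ofNat (algebraMap k₀ K) 5]; exact (map_ne_zero _).2 h5
  have hW₀ : W₀.IsElliptic := ⟨isUnit_iff_ne_zero.2 hΔ⟩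
  have hV₀e : V₀.IsElliptic := ⟨isUnit_iff_ne_zero.2 hΔ'⟩
  have hΔK : WeierstrassCurve.Δ (W₀⁄K) ≠ 0 := by
    change (W₀.map (algebraMap k₀ K)).Δ ≠ 0
    rw [WeierstrassCurve.map_Δ]; exact (map_ne_zero _).2 hΔ
  have hΔK' : WeierstrassCurve.Δ (V₀⁄K) ≠ 0 := by
    change (V₀.map (algebraMap k₀ K)).Δ ≠ 0
    rw [WeierstrassCurve.map_Δ]; exact (map_ne_zero _).2 hΔ'
  have hVK : (V₀⁄K) = famCurve (W₀⁄K) (algebraMap k₀ K m₀) := by
    change V₀.map (algebraMap k₀ K) = famCurve (W₀.map (algebraMap k₀ K)) (algebraMap k₀ K m₀)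
    rw [hV₀, map_famCurve]
  obtain ⟨x, y, n, B, C, hB, hC, hT⟩ := exists_tateData_of_isAlgClosed hΔK h5K
  have hns := hT.nonsingular hΔK
  let P : (W₀⁄K).Point := Point.some x y hns
  have hP0 : P ≠ 0 := Point.some_ne_zero _
  have hP5 : 5 • P = 0 := hT.five_nsmul hB hC hns
  obtain ⟨Q, hQ⟩ : ∃ Q : (V₀⁄K).Point, Rel (W₀⁄K) (V₀⁄K) (algebraMap k₀ K m₀) P Q :=
    Rel.exists' hVK h2K h3K hΔK' hP5
  set P₁ := Fermat.Agent.ECFrob.frob W₀ K P with hP₁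
  set Q₁ := Fermat.Agent.ECFrob.frob V₀ K Q with hQ₁
  set P₂ := Fermat.Agent.ECFrob.frob W₀ K P₁ with hP₂
  set Q₂ := Fermat.Agent.ECFrob.frob V₀ K Q₁ with hQ₂
  have r1 : Rel (W₀⁄K) (V₀⁄K) (algebraMap k₀ K m₀) P₁ Q₁ := hQ.frob m₀
  have r2 : Rel (W₀⁄K) (V₀⁄K) (algebraMap k₀ K m₀) P₂ Q₂ := r1.frob m₀
  have hP₁5 : 5 • P₁ = 0 := by rw [hP₁, ← map_nsmul, hP5, _root_.map_zero]
  have hP₂5 : 5 • P₂ = 0 := by rw [hP₂, ← map_nsmul, hP₁5, _root_.map_zero]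
  set a : ℤ := W₀.traceOfFrobenius with ha
  set a' : ℤ := V₀.traceOfFrobenius with ha'
  set q : ℤ := (Fintype.card k₀ : ℤ) with hq
  have e1 : P₂ - a • P₁ + q • P = 0 := frob_charEq W₀ K P
  have e2 : Q₂ - a' • Q₁ + q • Q = 0 := frob_charEq V₀ K Q
  have hP₁5' : 5 • (-a) • P₁ = 0 := by rw [smul_comm, hP₁5, smul_zero]
  have hP5' : 5 • q • P = 0 := by
    rw [smul_comm, hP5]; exact smul_zero (A := (W₀⁄K).Point) q
  have r3 : Rel (W₀⁄K) (V₀⁄K) (algebraMap k₀ K m₀) (P₂ + (-a) • P₁) (Q₂ + (-a) • Q₁) :=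
    Rel.add' hVK hΔK h2K h3K h5K hΔK' hP₂5 hP₁5' r2
      (Rel.zsmul hVK hΔK h2K h3K h5K hΔK' hP₁5 r1 (-a))
  have r4 : Rel (W₀⁄K) (V₀⁄K) (algebraMap k₀ K m₀) (P₂ + (-a) • P₁ + q • P)
      (Q₂ + (-a) • Q₁ + q • Q) :=
    Rel.add' hVK hΔK h2K h3K h5K hΔK'
      (by rw [nsmul_add, hP₂5, hP₁5', add_zero]) hP5' r3
      (Rel.zsmul hVK hΔK h2K h3K h5K hΔK' hP5 hQ q)
  have e1' : P₂ + (-a) • P₁ + q • P = 0 := by rw [neg_smul, ← sub_eq_add_neg]; exact e1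
  rw [e1'] at r4
  have e3 := r4.eq_zero
  have e4 : (a' - a) • Q₁ = 0 := by
    have : (a' - a) • Q₁ = (Q₂ + (-a) • Q₁ + q • Q) - (Q₂ - a' • Q₁ + q • Q) := by
      rw [sub_smul, neg_smul]; abel
    rw [this, e3, e2, sub_zero]
  have hQ₁0 : Q₁ ≠ 0 := by
    intro h0
    have : P₁ = 0 := by
      have := r1
      rw [h0] at this
      exact this.eq_zero'
    rw [hP₁] at this
    have hinj' : Function.Injective (Fermat.Agent.ECFrob.frob W₀ K) := Point.map_injective _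
    exact hP0 (hinj' (by rw [this, _root_.map_zero]))
  have hQ₁5 : (5 : ℤ) • Q₁ = 0 := by
    have := Rel.five hVK h2K h3K hΔK' r1
    exact_mod_cast this
  by_contra hdvd
  have hcop : IsCoprime (5 : ℤ) (a' - a) :=
    (Int.prime_iff_natAbs_prime.2 (by norm_num) : Prime (5 : ℤ)).coprime_iff_not_dvd.2 hdvd
  obtain ⟨u, v, huv⟩ := hcop
  apply hQ₁0
  have : (1 : ℤ) • Q₁ = 0 := by
    rw [← huv, add_smul, mul_smul, mul_smul, hQ₁5, e4, smul_zero, smul_zero, add_zero]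
  simpa using this

theorem apOfModel_congr {W : WeierstrassCurve ℤ} (s : ℤ) (ℓ : ℕ) (hℓ : ℓ.Prime)
    (hg' : (famCurve W (30 * W.Δ * s)).IsGoodPrimeFor ℓ) :
    (5 : ℤ) ∣ (famCurve W (30 * W.Δ * s)).apOfModel ℓ - W.apOfModel ℓ := by
  have := Fact.mk hℓ
  set m : ℤ := 30 * W.Δ * s with hm
  have hred : (famCurve W m).reductionMod ℓ = famCurve (W.reductionMod ℓ) (m : ZMod ℓ) := by
    simp only [reductionMod, map_famCurve]
    rfl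
  by_cases hdvd : (ℓ : ℤ) ∣ 30 * W.Δ
  · have h0 : (m : ZMod ℓ) = 0 :=
      (ZMod.intCast_zmod_eq_zero_iff_dvd m ℓ).2 (hdvd.mul_right s)
    simp only [apOfModel]
    rw [hred, h0, famCurve_zero, sub_self]
    exact dvd_zero _
  · have hc : ∀ n : ℤ, n ∣ 30 * W.Δ → (n : ZMod ℓ) ≠ 0 := by
      intro n hn h0
      exact hdvd (((ZMod.intCast_zmod_eq_zero_iff_dvd n ℓ).1 h0).trans hn)
    simp only [apOfModel]
    rw [hred]
    refine trace_congr ?_ ?_ ?_ ?_ ?_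
    · rw [reductionMod, WeierstrassCurve.map_Δ]
      exact hc W.Δ ⟨30, by ring⟩
    · rw [← hred, reductionMod, WeierstrassCurve.map_Δ]
      intro h0
      exact hg' ((ZMod.intCast_zmod_eq_zero_iff_dvd _ ℓ).1 h0)
    · have := hc 2 ⟨15 * W.Δ, by ring⟩
      exact_mod_cast this
    · have := hc 3 ⟨10 * W.Δ, by ring⟩
      exact_mod_cast this
    · have := hc 5 ⟨6 * W.Δ, by ring⟩
      exact_mod_cast this

end trace

end Fermat.Agent.S52x
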