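import Mathlib.Algebra.Polynomial.Inductions
import Mathlib.Algebra.Polynomial.Eval.Defs
import Mathlib.Tactic.Ring
import Mathlib.Tactic.LinearCombination

/-! Polynomial identities in three variables with integer coefficients, proved by evaluation at
one large integer point (Kronecker substitution) in the kernel. -/

set_option autoImplicit false

namespace Fermat.Agent.S52x.Kron

open Polynomial

/-- Polynomial expressions in three variables. -/
inductive Ex : Type
  | nat (n : ℕ)
  | one
  | x
  | y
  | z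
  | add (a b : Ex)
  | sub (a b : Ex)
  | mul (a b : Ex)
  | neg (a : Ex)
  | pow (a : Ex) (n : ℕ)

namespace Ex

instance (n : ℕ) : OfNat Ex n := ⟨Ex.nat n⟩
instance : Add Ex := ⟨Ex.add⟩
instance : Sub Ex := ⟨Ex.sub⟩
instance : Mul Ex := ⟨Ex.mul⟩
instance : Neg Ex := ⟨Ex.neg⟩
instance : Pow Ex ℕ := ⟨Ex.pow⟩

/-- value in a commutative ring -/
noncomputable def ev {R : Type*} [CommRing R] (x y z : R) (e : Ex) : R :=
  Ex.rec (motive := fun _ => R) (fun n => (n : R)) 1 x y z (fun _ _ a b => a + b)
    (fun _ _ a b => a - b) (fun _ _ a b => a * b) (fun _ a => -a) (fun _ n a => a ^ n) e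

/-- power of an integer by structural recursion -/
noncomputable def powZ (a : ℤ) (n : ℕ) : ℤ :=
  Nat.rec (motive := fun _ => ℤ) (Int.ofNat 1) (fun _ r => Int.mul r a) n

/-- value in `ℤ`, fast version -/
noncomputable def evZ (x y z : ℤ) (e : Ex) : ℤ :=
  Ex.rec (motive := fun _ => ℤ) (fun n => Int.ofNat n) (Int.ofNat 1) x y z
    (fun _ _ a b => Int.add a b)
    (fun _ _ a b => Int.sub a b) (fun _ _ a b => Int.mul a b) (fun _ a => Int.neg a)
    (fun _ n a => powZ a n) e

/-- bound -/
noncomputable def bd (x y z : ℕ) (e : Ex) : ℕ :=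
  Ex.rec (motive := fun _ => ℕ) (fun n => n) 1 x y z (fun _ _ a b => Nat.add a b)
    (fun _ _ a b => Nat.add a b) (fun _ _ a b => Nat.mul a b) (fun _ a => a)
    (fun _ n a => Nat.pow a n) e

theorem powZ_eq (a : ℤ) (n : ℕ) : powZ a n = a ^ n := by
  induction n with
  | zero => rw [pow_zero]; rfl
  | succ n ih => rw [pow_succ, ← ih]; rfl

theorem evZ_eq (x y z : ℤ) (e : Ex) : evZ x y z e = ev x y z e := by
  induction e with
  | nat n => rfl
  | one => rfl
  | x => rfl
  | y => rfl
  | z => rfl
  | add a b iha ihb =>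
    change evZ x y z a + evZ x y z b = ev x y z a + ev x y z b
    rw [iha, ihb]
  | sub a b iha ihb =>
    change evZ x y z a - evZ x y z b = ev x y z a - ev x y z b
    rw [iha, ihb]
  | mul a b iha ihb =>
    change evZ x y z a * evZ x y z b = ev x y z a * ev x y z b
    rw [iha, ihb]
  | neg a iha =>
    change -evZ x y z a = -ev x y z a
    rw [iha]
  | pow a n iha =>
    change powZ (evZ x y z a) n = ev x y z a ^ n
    rw [iha, powZ_eq]

theorem map_ev {R S : Type*} [CommRing R] [CommRing S] (f : R →+* S) (x y z : R) (e : Ex) :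
    f (ev x y z e) = ev (f x) (f y) (f z) e := by
  induction e with
  | nat n => exact map_natCast f n
  | one => exact map_one f
  | x => rfl
  | y => rfl
  | z => rfl
  | add a b iha ihb =>
    change f (ev x y z a + ev x y z b) = ev (f x) (f y) (f z) a + ev (f x) (f y) (f z) b
    rw [map_add, iha, ihb]
  | sub a b iha ihb =>
    change f (ev x y z a - ev x y z b) = ev (f x) (f y) (f z) a - ev (f x) (f y) (f z) b
    rw [map_sub, iha, ihb]
  | mul a b iha ihb =>
    change f (ev x y z a * ev x y z b) = ev (f x) (f y) (f z) a * ev (f x) (f y) (f z) b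
    rw [map_mul, iha, ihb]
  | neg a iha =>
    change f (-ev x y z a) = -ev (f x) (f y) (f z) a
    rw [map_neg, iha]
  | pow a n iha =>
    change f (ev x y z a ^ n) = ev (f x) (f y) (f z) a ^ n
    rw [map_pow, iha]

end Ex

/-- A natural-number-valued norm on a commutative ring of characteristic zero. -/
structure Nm (S : Type) [CommRing S] where
  N : S → ℕ
  eq_zero : ∀ a, N a = 0 → a = 0
  add : ∀ a b, N (a + b) ≤ N a + N b
  mul : ∀ a b, N (a * b) ≤ N a * N b
  neg : ∀ a, N (-a) ≤ N a
  one : N 1 = 1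
  nat : ∀ (n : ℕ) (a : S), N (n * a) = n * N a

namespace Nm

variable {S : Type} [CommRing S] (h : Nm S)

theorem N_natCast (n : ℕ) : h.N (n : S) = n := by
  have := h.nat n 1
  rwa [mul_one, h.one, mul_one] at this

theorem N_zero : h.N 0 = 0 := by
  have := h.N_natCast 0
  rwa [Nat.cast_zero] at this

theorem N_sub (a b : S) : h.N (a - b) ≤ h.N a + h.N b := by
  rw [sub_eq_add_neg]
  exact (h.add _ _).trans (Nat.add_le_add_left (h.neg b) _)

theorem N_pow (a : S) (n : ℕ) : h.N (a ^ n) ≤ h.N a ^ n := by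
  induction n with
  | zero => rw [pow_zero, pow_zero, h.one]
  | succ n ih =>
    rw [pow_succ, pow_succ]
    exact (h.mul _ _).trans (Nat.mul_le_mul_right _ ih)

theorem N_sum {ι : Type*} (s : Finset ι) (f : ι → S) :
    h.N (∑ i ∈ s, f i) ≤ ∑ i ∈ s, h.N (f i) := by
  classical
  induction s using Finset.induction_on with
  | empty => simp [h.N_zero]
  | insert a s ha ih =>
    rw [Finset.sum_insert ha, Finset.sum_insert ha]
    exact (h.add _ _).trans (Nat.add_le_add_left ih _)

theorem N_ev (x y z : S) (e : Ex) : h.N (e.ev x y z) ≤ e.bd (h.N x) (h.N y) (h.N z) := by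
  induction e with
  | nat n => exact (h.N_natCast n).le
  | one => exact h.one.le
  | x => exact le_rfl
  | y => exact le_rfl
  | z => exact le_rfl
  | add a b iha ihb => exact (h.add _ _).trans (Nat.add_le_add iha ihb)
  | sub a b iha ihb => exact (h.N_sub _ _).trans (Nat.add_le_add iha ihb)
  | mul a b iha ihb => exact (h.mul _ _).trans (Nat.mul_le_mul iha ihb)
  | neg a iha => exact (h.neg _).trans iha
  | pow a n iha => exact (h.N_pow _ _).trans (Nat.pow_le_pow_left iha n)

/-- the absolute value on `ℤ` -/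
def int : Nm ℤ where
  N := Int.natAbs
  eq_zero a ha := Int.natAbs_eq_zero.1 ha
  add a b := Int.natAbs_add_le a b
  mul a b := (Int.natAbs_mul a b).le
  neg a := (Int.natAbs_neg a).le
  one := rfl
  nat n a := by rw [Int.natAbs_mul, Int.natAbs_natCast]

/-- the sum of the norms of the coefficients -/
noncomputable def NP (p : S[X]) : ℕ := ∑ i ∈ p.support, h.N (p.coeff i)

theorem NP_eq (p : S[X]) (s : Finset ℕ) (hs : p.support ⊆ s) :
    h.NP p = ∑ i ∈ s, h.N (p.coeff i) := by
  refine Finset.sum_subset hs fun i _ hi => ?_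
  rw [Polynomial.notMem_support_iff.1 hi, h.N_zero]

theorem NP_add (p q : S[X]) : h.NP (p + q) ≤ h.NP p + h.NP q := by
  classical
  rw [h.NP_eq p (p.support ∪ q.support ∪ (p + q).support)
      (Finset.subset_union_left.trans Finset.subset_union_left),
    h.NP_eq q (p.support ∪ q.support ∪ (p + q).support)
      (Finset.subset_union_right.trans Finset.subset_union_left),
    h.NP_eq (p + q) (p.support ∪ q.support ∪ (p + q).support) Finset.subset_union_right,
    ← Finset.sum_add_distrib]
  refine Finset.sum_le_sum fun i _ => ?_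
  rw [Polynomial.coeff_add]
  exact h.add _ _

theorem NP_zero : h.NP 0 = 0 := by simp [NP]

theorem NP_sum {ι : Type*} (s : Finset ι) (f : ι → S[X]) :
    h.NP (∑ i ∈ s, f i) ≤ ∑ i ∈ s, h.NP (f i) := by
  classical
  induction s using Finset.induction_on with
  | empty => simp [h.NP_zero]
  | insert a s ha ih =>
    rw [Finset.sum_insert ha, Finset.sum_insert ha]
    exact (h.NP_add _ _).trans (Nat.add_le_add_left ih _)

theorem NP_monomial (n : ℕ) (a : S) : h.NP (monomial n a) = h.N a := by
  rw [h.NP_eq (monomial n a) {n} (Polynomial.support_monomial_subset n a), Finset.sum_singleton,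
    Polynomial.coeff_monomial, if_pos rfl]

theorem NP_mul (p q : S[X]) : h.NP (p * q) ≤ h.NP p * h.NP q := by
  rw [Polynomial.mul_eq_sum_sum]
  unfold Polynomial.sum
  refine (h.NP_sum _ _).trans ?_
  rw [NP, Finset.sum_mul]
  refine Finset.sum_le_sum fun i _ => ?_
  refine (h.NP_sum _ _).trans ?_
  rw [NP, Finset.mul_sum]
  refine Finset.sum_le_sum fun j _ => ?_
  rw [h.NP_monomial]
  exact h.mul _ _

/-- the `ℓ¹`-norm on polynomials -/
noncomputable def poly : Nm S[X] where
  N := h.NP
  eq_zero p hp := by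
    ext i
    rw [Polynomial.coeff_zero]
    by_cases hi : i ∈ p.support
    · exact h.eq_zero _ ((Finset.sum_eq_zero_iff.1 hp) i hi)
    · exact Polynomial.notMem_support_iff.1 hi
  add := h.NP_add
  mul := h.NP_mul
  neg p := by
    rw [NP, NP, Polynomial.support_neg]
    refine Finset.sum_le_sum fun i _ => ?_
    rw [Polynomial.coeff_neg]
    exact h.neg _
  one := by
    rw [← Polynomial.monomial_zero_one, h.NP_monomial, h.one]
  nat n p := by
    have hsub : ((n : S[X]) * p).support ⊆ p.support := by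
      intro i hi
      rw [Polynomial.mem_support_iff] at hi ⊢
      intro h0
      apply hi
      rw [← Polynomial.C_eq_natCast, Polynomial.coeff_C_mul, h0, mul_zero]
    rw [h.NP_eq _ p.support hsub, NP, Finset.mul_sum]
    refine Finset.sum_congr rfl fun i _ => ?_
    rw [← Polynomial.C_eq_natCast, Polynomial.coeff_C_mul, h.nat]

theorem poly_N_X : h.poly.N X = 1 := by
  change h.NP X = 1
  rw [← Polynomial.monomial_one_one_eq_X, h.NP_monomial, h.one]

theorem poly_N_C (a : S) : h.poly.N (C a) = h.N a := h.NP_monomial 0 a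

/-- A polynomial of norm `< m` vanishing at `m` is zero. -/
theorem eq_zero_of_eval (m : ℕ) : ∀ (n : ℕ) (p : S[X]), p.support ⊆ Finset.range n →
    h.NP p < m → p.eval (m : S) = 0 → p = 0 := by
  intro n
  induction n with
  | zero =>
    intro p hp _ _
    rw [Finset.range_zero, Finset.subset_empty, Polynomial.support_eq_empty] at hp
    exact hp
  | succ n ih =>
    intro p hp hm h0
    have hdec := Polynomial.divX_mul_X_add p
    have hsub : p.divX.support ⊆ Finset.range n := by
      intro i hi
      rw [Polynomial.mem_support_iff, Polynomial.coeff_divX] at hi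
      have := hp (Polynomial.mem_support_iff.2 hi)
      rw [Finset.mem_range] at this ⊢
      omega
    have hN : h.NP p = h.NP p.divX + h.N (p.coeff 0) := by
      rw [h.NP_eq p _ hp, h.NP_eq p.divX _ hsub, Finset.sum_range_succ']
      simp only [Polynomial.coeff_divX]
    have he : p.divX.eval (m : S) * m + p.coeff 0 = 0 := by
      rw [← hdec, Polynomial.eval_add, Polynomial.eval_mul, Polynomial.eval_X,
        Polynomial.eval_C] at h0
      exact h0
    have hc : p.coeff 0 = (m : S) * (-(p.divX.eval (m : S))) := by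
      linear_combination he
    have hNc : h.N (p.coeff 0) = m * h.N (-(p.divX.eval (m : S))) := by
      rw [hc, h.nat]
    have hz : h.N (-(p.divX.eval (m : S))) = 0 := by
      by_contra hne
      have h1 : 1 ≤ h.N (-(p.divX.eval (m : S))) := Nat.one_le_iff_ne_zero.2 hne
      have h2 : m * 1 ≤ m * h.N (-(p.divX.eval (m : S))) := Nat.mul_le_mul_left m h1
      omega
    have hev : p.divX.eval (m : S) = 0 := neg_eq_zero.1 (h.eq_zero _ hz)
    have hc0 : p.coeff 0 = 0 := by rw [hc, hev, neg_zero, mul_zero]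
    have hq : p.divX = 0 := ih p.divX hsub (by omega) hev
    rw [← hdec, hq, hc0, zero_mul, map_zero, add_zero]

theorem eq_zero_of_eval' (m : ℕ) (p : S[X]) (hm : h.poly.N p < m) (h0 : p.eval (m : S) = 0) :
    p = 0 :=
  h.eq_zero_of_eval m (p.natDegree + 1) p Polynomial.supp_subset_range_natDegree_succ hm h0

end Nm

/-- **Kronecker substitution**: an expression vanishing at one large point vanishes. -/
theorem Ex.ev_eq_zero (e : Ex) (k l m : ℕ) (h1 : e.bd 1 1 1 < k) (h2 : e.bd k 1 1 < l)
    (h3 : e.bd k l 1 < m) (h4 : e.evZ k l m = 0) {R : Type*} [CommRing R] (x y z : R) :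
    e.ev x y z = 0 := by
  rw [Ex.evZ_eq] at h4
  -- step 1
  have e1 : e.ev (k : ℤ[X]) (l : ℤ[X]) (X : ℤ[X]) = 0 := by
    refine Nm.int.eq_zero_of_eval' m _ ((Nm.int.poly.N_ev _ _ _ e).trans_lt ?_) ?_
    · rw [Nm.N_natCast, Nm.N_natCast, Nm.poly_N_X]
      exact h3
    · have := Ex.map_ev (R := ℤ[X]) (S := ℤ) (Polynomial.evalRingHom (m : ℤ)) (k : ℤ[X]) (l : ℤ[X]) X e
      rw [map_natCast, map_natCast, Polynomial.coe_evalRingHom, Polynomial.eval_X] at this
      exact this.trans h4
  -- step 2
  have e2 : e.ev (k : ℤ[X][X]) (X : ℤ[X][X]) (C X : ℤ[X][X]) = 0 := by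
    refine Nm.int.poly.eq_zero_of_eval' l _ ((Nm.int.poly.poly.N_ev _ _ _ e).trans_lt ?_) ?_
    · rw [Nm.N_natCast, Nm.poly_N_X, Nm.poly_N_C, Nm.poly_N_X]
      exact h2
    · have := Ex.map_ev (R := ℤ[X][X]) (S := ℤ[X]) (Polynomial.evalRingHom (l : ℤ[X])) (k : ℤ[X][X]) X (C X) e
      rw [map_natCast, Polynomial.coe_evalRingHom, Polynomial.eval_X, Polynomial.eval_C] at this
      exact this.trans e1
  -- step 3
  have e3 : e.ev (X : ℤ[X][X][X]) (C X : ℤ[X][X][X]) (C (C X) : ℤ[X][X][X]) = 0 := by
    refine Nm.int.poly.poly.eq_zero_of_eval' k _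
      ((Nm.int.poly.poly.poly.N_ev _ _ _ e).trans_lt ?_) ?_
    · rw [Nm.poly_N_X, Nm.poly_N_C, Nm.poly_N_C, Nm.poly_N_C, Nm.poly_N_X, Nm.poly_N_X]
      exact h1
    · have := Ex.map_ev (R := ℤ[X][X][X]) (S := ℤ[X][X]) (Polynomial.evalRingHom (k : ℤ[X][X])) X (C X) (C (C X)) e
      rw [Polynomial.coe_evalRingHom, Polynomial.eval_X, Polynomial.eval_C,
        Polynomial.eval_C] at this
      exact this.trans e2
  have := Ex.map_ev (R := ℤ[X][X][X]) (S := R) (Polynomial.eval₂RingHom (Polynomial.eval₂RingHom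
    (Polynomial.eval₂RingHom (Int.castRingHom R) z) y) x) X (C X) (C (C X)) e
  rw [e3, map_zero] at this
  simp only [Polynomial.coe_eval₂RingHom, Polynomial.eval₂_X, Polynomial.eval₂_C] at this
  exact this.symm

end Fermat.Agent.S52x.Kron
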