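import Fermat.Agent.S52.Defs
import Fermat.Agent.S52.Kron

/-! The syzygy between the covariants of the icosahedral form, by Kronecker substitution. -/

set_option autoImplicit false
set_option linter.unusedVariables false

namespace Fermat.Agent.S52x

namespace Kron.Syz

/-- expression for `c4c0` -/
def c4c0E (a b : Ex) : Ex := a

/-- expression for `c4c1` -/
def c4c1E (a b : Ex) : Ex := 20*b

/-- expression for `c4c2` -/
def c4c2E (a b : Ex) : Ex := 190*a^2

/-- expression for `c4c3` -/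
def c4c3E (a b : Ex) : Ex := 1140*a*b

/-- expression for `c4c4` -/
def c4c4E (a b : Ex) : Ex := 5700*b^2 - 855*a^3

/-- expression for `c4c5` -/
def c4c5E (a b : Ex) : Ex := 15504*a^2*b

/-- expression for `c4c6` -/
def c4c6E (a b : Ex) : Ex := -63840*a*b^2 + 102600*a^4

/-- expression for `c4c7` -/
def c4c7E (a b : Ex) : Ex := -182400*b^3 + 259920*a^3*b

/-- expression for `c4c8` -/
def c4c8E (a b : Ex) : Ex := 1126320*a^2*b^2 - 1000350*a^5

/-- expression for `c4c9` -/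
def c4c9E (a b : Ex) : Ex := 7904000*a*b^3 - 7736040*a^4*b

/-- expression for `c4c10` -/
def c4c10E (a b : Ex) : Ex := 15808000*b^4 - 5619744*a^3*b^2 - 10003500*a^6

/-- expression for `c4c11` -/
def c4c11E (a b : Ex) : Ex := 54853760*a^2*b^3 - 54685800*a^5*b

/-- expression for `c4c12` -/
def c4c12E (a b : Ex) : Ex := 37939200*a*b^4 + 7202520*a^4*b^2 - 45015750*a^7

/-- expression for `c4c13` -/
def c4c13E (a b : Ex) : Ex := 58368000*b^5 - 23201280*a^3*b^3 - 35089200*a^6*b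

/-- expression for `c4c14` -/
def c4c14E (a b : Ex) : Ex := 287462400*a^2*b^4 - 495188640*a^5*b^2 + 207765000*a^8

/-- expression for `c4c15` -/
def c4c15E (a b : Ex) : Ex := 466944000*a*b^5 - 882458496*a^4*b^3 + 415530000*a^7*b

/-- expression for `c4c16` -/
def c4c16E (a b : Ex) : Ex := 583680000*b^6 - 1220474880*a^3*b^4 + 714711600*a^6*b^2 - 77911875*a^9

/-- expression for `c4c17` -/
def c4c17E (a b : Ex) : Ex := 361881600*a^2*b^5 - 715080960*a^5*b^3 + 353200500*a^8*b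

/-- expression for `c4c18` -/
def c4c18E (a b : Ex) : Ex := -622592000*a*b^6 + 2026391040*a^4*b^4 - 2182917600*a^7*b^2 + 779118750*a^10

/-- expression for `c4c19` -/
def c4c19E (a b : Ex) : Ex := -655360000*b^7 + 2005401600*a^3*b^5 - 2044414080*a^6*b^3 + 694372500*a^9*b

/-- expression for `c4c20` -/
def c4c20E (a b : Ex) : Ex := -180224000*a^2*b^6 + 544997376*a^5*b^4 - 549301500*a^8*b^2 + 184528125*a^11

/-- expression for `C4p` -/
def C4pE (a b t : Ex) : Ex := c4c0E a b + c4c1E a b * t + c4c2E a b * t ^ 2 + c4c3E a b * t ^ 3 + c4c4E a b * t ^ 4 + c4c5E a b * t ^ 5 + c4c6E a b * t ^ 6 + c4c7E a b * t ^ 7 + c4c8E a b * t ^ 8 + c4c9E a b * t ^ 9 + c4c10E a b * t ^ 10 + c4c11E a b * t ^ 11 + c4c12E a b * t ^ 12 + c4c13E a b * t ^ 13 + c4c14E a b * t ^ 14 + c4c15E a b * t ^ 15 + c4c16E a b * t ^ 16 + c4c17E a b * t ^ 17 + c4c18E a b * t ^ 18 + c4c19E a b * t ^ 19 + c4c20E a b * t ^ 20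

/-- expression for `c6c0` -/
def c6c0E (a b : Ex) : Ex := b

/-- expression for `c6c1` -/
def c6c1E (a b : Ex) : Ex := 30*a^2

/-- expression for `c6c2` -/
def c6c2E (a b : Ex) : Ex := 435*a*b

/-- expression for `c6c3` -/
def c6c3E (a b : Ex) : Ex := 2900*b^2 + 1160*a^3

/-- expression for `c6c4` -/
def c6c4E (a b : Ex) : Ex := 27405*a^2*b

/-- expression for `c6c5` -/
def c6c5E (a b : Ex) : Ex := 46980*a*b^2 + 95526*a^4

/-- expression for `c6c6` -/
def c6c6E (a b : Ex) : Ex := 156600*b^3 + 437175*a^3*b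

/-- expression for `c6c7` -/
def c6c7E (a b : Ex) : Ex := 3915000*a^2*b^2 - 1879200*a^5

/-- expression for `c6c8` -/
def c6c8E (a b : Ex) : Ex := 14407200*a*b^3 - 8554275*a^4*b

/-- expression for `c6c9` -/
def c6c9E (a b : Ex) : Ex := 32016000*b^4 - 42021000*a^3*b^2 + 24312150*a^6

/-- expression for `c6c10` -/
def c6c10E (a b : Ex) : Ex := -216588240*a^2*b^3 + 246633255*a^5*b

/-- expression for `c6c11` -/
def c6c11E (a b : Ex) : Ex := -1459929600*a*b^4 + 1352475900*a^4*b^2 + 162081000*a^7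

/-- expression for `c6c12` -/
def c6c12E (a b : Ex) : Ex := -2433216000*b^5 - 1612005600*a^3*b^3 + 4131714825*a^6*b

/-- expression for `c6c13` -/
def c6c13E (a b : Ex) : Ex := -12044419200*a^2*b^4 + 5235216300*a^5*b^2 + 6928962750*a^8

/-- expression for `c6c14` -/
def c6c14E (a b : Ex) : Ex := -43045111800*a^4*b^3 + 43190534475*a^7*b

/-- expression for `c6c15` -/
def c6c15E (a b : Ex) : Ex := -79420170240*a^3*b^4 + 79575287760*a^6*b^2

/-- expression for `c6c16` -/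
def c6c16E (a b : Ex) : Ex := -297825638400*a^2*b^5 + 474659611200*a^5*b^3 - 176688550125*a^8*b

/-- expression for `c6c17` -/
def c6c17E (a b : Ex) : Ex := -700766208000*a*b^6 + 935084908800*a^4*b^4 + 77604382800*a^7*b^2 - 311803323750*a^10

/-- expression for `c6c18` -/
def c6c18E (a b : Ex) : Ex := -778629120000*b^7 - 303665356800*a^3*b^5 + 2776512362400*a^6*b^3 - 1694131392375*a^9*b

/-- expression for `c6c19` -/
def c6c19E (a b : Ex) : Ex := -4290656256000*a^2*b^6 + 8100765158400*a^5*b^4 - 3481840250100*a^8*b^2 - 328214025000*a^11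

/-- expression for `c6c20` -/
def c6c20E (a b : Ex) : Ex := -3442360320000*a*b^7 + 3892110842880*a^4*b^5 + 2424887357760*a^7*b^3 - 2874607835625*a^10*b

/-- expression for `c6c21` -/
def c6c21E (a b : Ex) : Ex := -3278438400000*b^8 + 5125838438400*a^3*b^6 - 2709129888000*a^6*b^4 + 3077188825500*a^9*b^2 - 2215444668750*a^12

/-- expression for `c6c22` -/
def c6c22E (a b : Ex) : Ex := -4573421568000*a^2*b^7 + 7701051801600*a^5*b^5 - 1724509423800*a^8*b^3 - 1403114956875*a^11*b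

/-- expression for `c6c23` -/
def c6c23E (a b : Ex) : Ex := 6157762560000*a*b^8 - 30337884979200*a^4*b^6 + 49888700928000*a^7*b^4 - 33414470973000*a^10*b^2 + 7705894500000*a^13

/-- expression for `c6c24` -/
def c6c24E (a b : Ex) : Ex := 5131468800000*b^9 - 22779445248000*a^3*b^7 + 35246094796800*a^6*b^5 - 22687218914400*a^9*b^3 + 5089101159375*a^12*b

/-- expression for `c6c25` -/
def c6c25E (a b : Ex) : Ex := -18216714240000*a^2*b^8 + 71274600677376*a^5*b^6 - 105528606261120*a^8*b^4 + 70097953635000*a^11*b^2 - 17627233668750*a^14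

/-- expression for `c6c26` -/
def c6c26E (a b : Ex) : Ex := -41051750400000*a*b^9 + 163803539865600*a^4*b^7 - 245438120632320*a^7*b^5 + 163672057566000*a^10*b^3 - 40985726371875*a^13*b

/-- expression for `c6c27` -/
def c6c27E (a b : Ex) : Ex := -30408704000000*b^10 + 111934439424000*a^3*b^8 - 143803576074240*a^6*b^6 + 63806176396800*a^9*b^4 + 8104032382500*a^12*b^2 - 9632368125000*a^15

/-- expression for `c6c28` -/
def c6c28E (a b : Ex) : Ex := -21438136320000*a^2*b^9 + 85731449241600*a^5*b^7 - 128580522647040*a^8*b^5 + 85719228804000*a^11*b^3 - 21432019078125*a^14*b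

/-- expression for `c6c29` -/
def c6c29E (a b : Ex) : Ex := 5033164800000*a*b^10 - 31344427008000*a^4*b^8 + 75042714746880*a^7*b^6 - 87394892457600*a^10*b^4 + 49873523512500*a^13*b^2 - 11210083593750*a^16

/-- expression for `c6c30` -/
def c6c30E (a b : Ex) : Ex := 3355443200000*b^11 - 17532190720000*a^3*b^9 + 36574189977600*a^6*b^7 - 38083944628224*a^9*b^5 + 19796866155000*a^12*b^3 - 4110363984375*a^15*b

/-- expression for `C6p` -/
def C6pE (a b t : Ex) : Ex := c6c0E a b + c6c1E a b * t + c6c2E a b * t ^ 2 + c6c3E a b * t ^ 3 + c6c4E a b * t ^ 4 + c6c5E a b * t ^ 5 + c6c6E a b * t ^ 6 + c6c7E a b * t ^ 7 + c6c8E a b * t ^ 8 + c6c9E a b * t ^ 9 + c6c10E a b * t ^ 10 + c6c11E a b * t ^ 11 + c6c12E a b * t ^ 12 + c6c13E a b * t ^ 13 + c6c14E a b * t ^ 14 + c6c15E a b * t ^ 15 + c6c16E a b * t ^ 16 + c6c17E a b * t ^ 17 + c6c18E a b * t ^ 18 + c6c19E a b * t ^ 19 + c6c20E a b * t ^ 20 + c6c21E a b * t ^ 21 + c6c22E a b * t ^ 22 + c6c23E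 a b * t ^ 23 + c6c24E a b * t ^ 24 + c6c25E a b * t ^ 25 + c6c26E a b * t ^ 26 + c6c27E a b * t ^ 27 + c6c28E a b * t ^ 28 + c6c29E a b * t ^ 29 + c6c30E a b * t ^ 30

/-- expression for `dc2` -/
def dc2E (a b : Ex) : Ex := -66*a

/-- expression for `dc3` -/
def dc3E (a b : Ex) : Ex := -440*b

/-- expression for `dc4` -/
def dc4E (a b : Ex) : Ex := -1485*a^2

/-- expression for `dc5` -/
def dc5E (a b : Ex) : Ex := -3168*a*b

/-- expression for `dc6` -/
def dc6E (a b : Ex) : Ex := -10560*b^2 + 5940*a^3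

/-- expression for `dc7` -/
def dc7E (a b : Ex) : Ex := -4752*a^2*b

/-- expression for `dc8` -/
def dc8E (a b : Ex) : Ex := 63360*a*b^2 - 66825*a^4

/-- expression for `dc9` -/
def dc9E (a b : Ex) : Ex := 140800*b^3 - 142560*a^3*b

/-- expression for `dc10` -/
def dc10E (a b : Ex) : Ex := 133056*a^2*b^2 - 133650*a^5

/-- expression for `dc11` -/
def dc11E (a b : Ex) : Ex := 61440*a*b^3 - 61560*a^4*b

/-- expression for `dc12` -/
def dc12E (a b : Ex) : Ex := 102400*b^4 - 193536*a^3*b^2 + 91125*a^6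

/-- expression for `Dp` -/
def DpE (a b t : Ex) : Ex := Ex.one + dc2E a b * t ^ 2 + dc3E a b * t ^ 3 + dc4E a b * t ^ 4 + dc5E a b * t ^ 5 + dc6E a b * t ^ 6 + dc7E a b * t ^ 7 + dc8E a b * t ^ 8 + dc9E a b * t ^ 9 + dc10E a b * t ^ 10 + dc11E a b * t ^ 11 + dc12E a b * t ^ 12

/-- the difference of the two sides -/
def idE : Ex :=
  C4pE Ex.x Ex.y Ex.z ^ 3 - C6pE Ex.x Ex.y Ex.z ^ 2 - (Ex.x ^ 3 - Ex.y ^ 2) * DpE Ex.x Ex.y Ex.z ^ 5

theorem idE_ev {R : Type*} [CommRing R] (a b t : R) :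
    idE.ev a b t = C4p a b t ^ 3 - C6p a b t ^ 2 - (a ^ 3 - b ^ 2) * Dp a b t ^ 5 := rfl

theorem idE_bd1 : idE.bd 1 1 1 < Nat.pow 2 104 := by decide +kernel

theorem idE_bd2 : idE.bd (Nat.pow 2 104) 1 1 < Nat.pow 2 3516 := by decide +kernel

theorem idE_bd3 : idE.bd (Nat.pow 2 104) (Nat.pow 2 3516) 1 < Nat.pow 2 77437 := by
  decide +kernel

theorem idE_evZ : idE.evZ (Int.ofNat (Nat.pow 2 104)) (Int.ofNat (Nat.pow 2 3516))
    (Int.ofNat (Nat.pow 2 77437)) = 0 := by
  decide +kernel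

theorem idE_eq_zero {R : Type*} [CommRing R] (a b t : R) : idE.ev a b t = 0 :=
  idE.ev_eq_zero _ _ _ idE_bd1 idE_bd2 idE_bd3 idE_evZ a b t

end Kron.Syz

variable {R : Type*} [CommRing R]

theorem syzygy (a b t : R) :
    C4p a b t ^ 3 - C6p a b t ^ 2 = (a ^ 3 - b ^ 2) * Dp a b t ^ 5 :=
  sub_eq_zero.1 ((Kron.Syz.idE_ev a b t).symm.trans (Kron.Syz.idE_eq_zero a b t))

end Fermat.Agent.S52x
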