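import Mathlib.AlgebraicGeometry.EllipticCurve.Weierstrass
import Fermat.Agent.S52.Defs
import Fermat.Agent.S52.Syzygy

/-! The family of Weierstrass curves. -/

set_option autoImplicit false
set_option linter.unusedVariables false

namespace Fermat.Agent.S52x

section

variable {R : Type*} [CommRing R]

/-- `(C4p a b t - a) / t` -/
def G4 (a b t : R) : R :=
    c4c1 a b + c4c2 a b * t + c4c3 a b * t ^ 2 + c4c4 a b * t ^ 3 + c4c5 a b * t ^ 4 + c4c6 a b * t ^ 5 + c4c7 a b * t ^ 6 + c4c8 a b * t ^ 7 + c4c9 a b * t ^ 8 + c4c10 a b * t ^ 9 + c4c11 a b * t ^ 10 + c4c12 a b * t ^ 11 + c4c13 a b * t ^ 12 + c4c14 a b * t ^ 13 + c4c15 a b * t ^ 14 + c4c16 a b * t ^ 15 + c4c17 a b * t ^ 16 + c4c18 a b * t ^ 17 + c4c19 a b * t ^ 18 + c4c20 a b * t ^ 19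

/-- `(C6p a b t - b) / t` -/
def G6 (a b t : R) : R :=
    c6c1 a b + c6c2 a b * t + c6c3 a b * t ^ 2 + c6c4 a b * t ^ 3 + c6c5 a b * t ^ 4 + c6c6 a b * t ^ 5 + c6c7 a b * t ^ 6 + c6c8 a b * t ^ 7 + c6c9 a b * t ^ 8 + c6c10 a b * t ^ 9 + c6c11 a b * t ^ 10 + c6c12 a b * t ^ 11 + c6c13 a b * t ^ 12 + c6c14 a b * t ^ 13 + c6c15 a b * t ^ 14 + c6c16 a b * t ^ 15 + c6c17 a b * t ^ 16 + c6c18 a b * t ^ 17 + c6c19 a b * t ^ 18 + c6c20 a b * t ^ 19 + c6c21 a b * t ^ 20 + c6c22 a b * t ^ 21 + c6c23 a b * t ^ 22 + c6c24 a b * t ^ 23 + c6c25 a b * t ^ 24 + c6c26 a b * t ^ 25 + c6c27 a b * t ^ 26 + c6c28 a b * t ^ 27 + c6c29 a b * t ^ 28 + c6c30 a b * t ^ 29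

theorem C4p_eq (a b t : R) : C4p a b t = a + t * G4 a b t := by
  simp only [C4p, G4, c4c0]; ring

theorem C6p_eq (a b t : R) : C6p a b t = b + t * G6 a b t := by
  simp only [C6p, G6, c6c0]; ring

/-- auxiliary: shift `c₄` by `1728 * p` and `c₆` by `1728 * q`. -/
def shiftCurve (W : WeierstrassCurve R) (p q : R) : WeierstrassCurve R where
  a₁ := W.a₁
  a₂ := W.a₂
  a₃ := W.a₃
  a₄ := W.a₄ - 36 * p
  a₆ := W.a₆ - 3 * W.b₂ * p - 2 * q

theorem shiftCurve_c₄ (W : WeierstrassCurve R) (p q : R) :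
    (shiftCurve W p q).c₄ = W.c₄ + 1728 * p := by
  simp only [WeierstrassCurve.c₄, WeierstrassCurve.b₂, WeierstrassCurve.b₄, shiftCurve]
  ring

theorem shiftCurve_c₆ (W : WeierstrassCurve R) (p q : R) :
    (shiftCurve W p q).c₆ = W.c₆ + 1728 * q := by
  simp only [WeierstrassCurve.c₆, WeierstrassCurve.b₂, WeierstrassCurve.b₄,
    WeierstrassCurve.b₆, shiftCurve]
  ring

theorem shiftCurve_map {S : Type*} [CommRing S] (f : R →+* S) (W : WeierstrassCurve R) (p q : R) :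
    (shiftCurve W p q).map f = shiftCurve (W.map f) (f p) (f q) := by
  ext <;> simp only [shiftCurve, WeierstrassCurve.map_a₁, WeierstrassCurve.map_a₂,
    WeierstrassCurve.map_a₃, WeierstrassCurve.map_a₄, WeierstrassCurve.map_a₆,
    WeierstrassCurve.map_b₂, map_sub, map_mul, map_ofNat]

/-- The curve of the family through `W` with parameter `t = 1728 * m`. -/
def famCurve (W : WeierstrassCurve R) (m : R) : WeierstrassCurve R :=
  shiftCurve W (m * G4 W.c₄ W.c₆ (1728 * m)) (m * G6 W.c₄ W.c₆ (1728 * m))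

@[simp] theorem famCurve_a₁ (W : WeierstrassCurve R) (m : R) : (famCurve W m).a₁ = W.a₁ := rfl
@[simp] theorem famCurve_a₂ (W : WeierstrassCurve R) (m : R) : (famCurve W m).a₂ = W.a₂ := rfl
@[simp] theorem famCurve_a₃ (W : WeierstrassCurve R) (m : R) : (famCurve W m).a₃ = W.a₃ := rfl
@[simp] theorem famCurve_b₂ (W : WeierstrassCurve R) (m : R) : (famCurve W m).b₂ = W.b₂ := rfl

theorem famCurve_c₄ (W : WeierstrassCurve R) (m : R) :
    (famCurve W m).c₄ = C4p W.c₄ W.c₆ (1728 * m) := by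
  rw [famCurve, shiftCurve_c₄, C4p_eq, mul_assoc]

theorem famCurve_c₆ (W : WeierstrassCurve R) (m : R) :
    (famCurve W m).c₆ = C6p W.c₄ W.c₆ (1728 * m) := by
  rw [famCurve, shiftCurve_c₆, C6p_eq, mul_assoc]

theorem famCurve_Δ' (W : WeierstrassCurve R) (m : R) :
    1728 * (famCurve W m).Δ = 1728 * (W.Δ * Dp W.c₄ W.c₆ (1728 * m) ^ 5) := by
  rw [WeierstrassCurve.c_relation, famCurve_c₄, famCurve_c₆, syzygy,
    ← WeierstrassCurve.c_relation]
  ring

@[simp] theorem famCurve_zero (W : WeierstrassCurve R) : famCurve W 0 = W := by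
  simp [famCurve, shiftCurve]

section map

variable {S : Type*} [CommRing S] (f : R →+* S)

theorem map_G4 (a b t : R) : f (G4 a b t) = G4 (f a) (f b) (f t) := by
  simp only [G4, map_add, map_mul, map_pow, c4c1, c4c2, c4c3, c4c4, c4c5, c4c6, c4c7, c4c8, c4c9,
    c4c10, c4c11, c4c12, c4c13, c4c14, c4c15, c4c16, c4c17, c4c18, c4c19, c4c20, map_sub, map_neg,
    map_ofNat]

theorem map_G6 (a b t : R) : f (G6 a b t) = G6 (f a) (f b) (f t) := by
  simp only [G6, map_add, map_mul, map_pow, c6c1, c6c2, c6c3, c6c4, c6c5, c6c6, c6c7, c6c8, c6c9,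
    c6c10, c6c11, c6c12, c6c13, c6c14, c6c15, c6c16, c6c17, c6c18, c6c19, c6c20, c6c21, c6c22,
    c6c23, c6c24, c6c25, c6c26, c6c27, c6c28, c6c29, c6c30, map_sub, map_neg, map_ofNat]

theorem map_C4p (a b t : R) : f (C4p a b t) = C4p (f a) (f b) (f t) := by
  simp only [C4p_eq, map_add, map_mul, map_G4]

theorem map_C6p (a b t : R) : f (C6p a b t) = C6p (f a) (f b) (f t) := by
  simp only [C6p_eq, map_add, map_mul, map_G6]

theorem map_Dp (a b t : R) : f (Dp a b t) = Dp (f a) (f b) (f t) := by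
  simp only [Dp, map_add, map_mul, map_pow, dc2, dc3, dc4, dc5, dc6, dc7, dc8, dc9, dc10, dc11,
    dc12, map_sub, map_neg, map_ofNat, map_one]

theorem map_famCurve (W : WeierstrassCurve R) (m : R) :
    (famCurve W m).map f = famCurve (W.map f) (f m) := by
  simp only [famCurve, shiftCurve_map, map_mul, map_G4, map_G6, map_ofNat,
    WeierstrassCurve.map_c₄, WeierstrassCurve.map_c₆]

end map

end

/-- discriminant of the family over the integers -/
theorem famCurve_Δ_int (W : WeierstrassCurve ℤ) (m : ℤ) :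
    (famCurve W m).Δ = W.Δ * Dp W.c₄ W.c₆ (1728 * m) ^ 5 := by
  have := famCurve_Δ' W m
  omega

theorem famCurve_Δ {F : Type*} [Field F] (W : WeierstrassCurve F) (m : F) (h2 : (2 : F) ≠ 0)
    (h3 : (3 : F) ≠ 0) : (famCurve W m).Δ = W.Δ * Dp W.c₄ W.c₆ (1728 * m) ^ 5 := by
  have h : (1728 : F) ≠ 0 := by
    have : (1728 : F) = 2 ^ 6 * 3 ^ 3 := by norm_num
    rw [this]; exact mul_ne_zero (pow_ne_zero _ h2) (pow_ne_zero _ h3)
  exact mul_left_cancel₀ h (famCurve_Δ' W m)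

end Fermat.Agent.S52x
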