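import Fermat.Agent.S52.Defs
import Fermat.Agent.S52.Kron

/-! The identity expressing `c₄` of the Tate curve with parameters `B_t, C_t`, by Kronecker
substitution. -/

set_option autoImplicit false
set_option linter.unusedVariables false

namespace Fermat.Agent.S52x

namespace Kron

/-- expression for `c4c0` -/
def c4c0E (a b : Ex) : Ex := a

/-- expression for `c4c1` -/
def c4c1E (a b : Ex) : Ex := 20*b

/-- expression for `c4c2` -/
def c4c2E (a b : Ex) : Ex := 190*a^2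

/-- expression for `c4c3` -/
def c4c3E (a b : Ex) : Ex := 1140*a*b

/-- expression for `c4c4` -/
def c4c4E (a b : Ex) : Ex := 5700*b^2 - 855*a^3

/-- expression for `c4c5` -/
def c4c5E (a b : Ex) : Ex := 15504*a^2*b

/-- expression for `c4c6` -/
def c4c6E (a b : Ex) : Ex := -63840*a*b^2 + 102600*a^4

/-- expression for `c4c7` -/
def c4c7E (a b : Ex) : Ex := -182400*b^3 + 259920*a^3*b

/-- expression for `c4c8` -/
def c4c8E (a b : Ex) : Ex := 1126320*a^2*b^2 - 1000350*a^5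

/-- expression for `c4c9` -/
def c4c9E (a b : Ex) : Ex := 7904000*a*b^3 - 7736040*a^4*b

/-- expression for `c4c10` -/
def c4c10E (a b : Ex) : Ex := 15808000*b^4 - 5619744*a^3*b^2 - 10003500*a^6

/-- expression for `c4c11` -/
def c4c11E (a b : Ex) : Ex := 54853760*a^2*b^3 - 54685800*a^5*b

/-- expression for `c4c12` -/
def c4c12E (a b : Ex) : Ex := 37939200*a*b^4 + 7202520*a^4*b^2 - 45015750*a^7

/-- expression for `c4c13` -/
def c4c13E (a b : Ex) : Ex := 58368000*b^5 - 23201280*a^3*b^3 - 35089200*a^6*b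

/-- expression for `c4c14` -/
def c4c14E (a b : Ex) : Ex := 287462400*a^2*b^4 - 495188640*a^5*b^2 + 207765000*a^8

/-- expression for `c4c15` -/
def c4c15E (a b : Ex) : Ex := 466944000*a*b^5 - 882458496*a^4*b^3 + 415530000*a^7*b

/-- expression for `c4c16` -/
def c4c16E (a b : Ex) : Ex := 583680000*b^6 - 1220474880*a^3*b^4 + 714711600*a^6*b^2 - 77911875*a^9

/-- expression for `c4c17` -/
def c4c17E (a b : Ex) : Ex := 361881600*a^2*b^5 - 715080960*a^5*b^3 + 353200500*a^8*b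

/-- expression for `c4c18` -/
def c4c18E (a b : Ex) : Ex := -622592000*a*b^6 + 2026391040*a^4*b^4 - 2182917600*a^7*b^2 + 779118750*a^10

/-- expression for `c4c19` -/
def c4c19E (a b : Ex) : Ex := -655360000*b^7 + 2005401600*a^3*b^5 - 2044414080*a^6*b^3 + 694372500*a^9*b

/-- expression for `c4c20` -/
def c4c20E (a b : Ex) : Ex := -180224000*a^2*b^6 + 544997376*a^5*b^4 - 549301500*a^8*b^2 + 184528125*a^11

/-- expression for `C4p` -/
def C4pE (a b t : Ex) : Ex := c4c0E a b + c4c1E a b * t + c4c2E a b * t ^ 2 + c4c3E a b * t ^ 3 + c4c4E a b * t ^ 4 + c4c5E a b * t ^ 5 + c4c6E a b * t ^ 6 + c4c7E a b * t ^ 7 + c4c8E a b * t ^ 8 + c4c9E a b * t ^ 9 + c4c10E a b * t ^ 10 + c4c11E a b * t ^ 11 + c4c12E a b * t ^ 12 + c4c13E a b * t ^ 13 + c4c14E a b * t ^ 14 + c4c15E a b * t ^ 15 + c4c16E a b * t ^ 16 + c4c17E a b * t ^ 17 + c4c18E a b * t ^ 18 + c4c19E a b * t ^ 19 + c4c20E a b * t ^ 20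

/-- expression for `Fc1` -/
def Fc1E (B C : Ex) : Ex := 7*C^2 + 66*B*C - 5*B^2

/-- expression for `Fc2` -/
def Fc2E (B C : Ex) : Ex := -38*C^4 - 264*B*C^3 + 1772*B^2*C^2 - 264*B^3*C + 10*B^4

/-- expression for `Fc3` -/
def Fc3E (B C : Ex) : Ex := 62*C^6 + 396*B*C^5 - 966*B^2*C^4 + 24552*B^3*C^3 - 5358*B^4*C^2 + 396*B^5*C - 10*B^6

/-- expression for `Fc4` -/
def Fc4E (B C : Ex) : Ex := -43*C^8 - 264*B*C^7 - 3364*B^2*C^6 - 48312*B^3*C^5 + 164046*B^4*C^4 - 48312*B^5*C^3 + 5372*B^6*C^2 - 264*B^7*C + 5*B^8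

/-- expression for `Fc5` -/
def Fc5E (B C : Ex) : Ex := 11*C^10 + 66*B*C^9 + 2563*B^2*C^8 + 24024*B^3*C^7 - 80938*B^4*C^6 + 475596*B^5*C^5 - 163042*B^6*C^4 + 24024*B^7*C^3 - 1793*B^8*C^2 + 66*B^9*C - B^10

/-- expression for `Fp` -/
def FpE (B C t : Ex) : Ex := Ex.one + Fc1E B C * t + Fc2E B C * t ^ 2 + Fc3E B C * t ^ 3 + Fc4E B C * t ^ 4 + Fc5E B C * t ^ 5

/-- expression for `Gc1` -/
def Gc1E (B C : Ex) : Ex := -5*C^2 - 66*B*C + 7*B^2

/-- expression for `Gc2` -/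
def Gc2E (B C : Ex) : Ex := 10*C^4 + 264*B*C^3 + 1772*B^2*C^2 + 264*B^3*C - 38*B^4

/-- expression for `Gc3` -/
def Gc3E (B C : Ex) : Ex := -10*C^6 - 396*B*C^5 - 5358*B^2*C^4 - 24552*B^3*C^3 - 966*B^4*C^2 - 396*B^5*C + 62*B^6

/-- expression for `Gc4` -/
def Gc4E (B C : Ex) : Ex := 5*C^8 + 264*B*C^7 + 5372*B^2*C^6 + 48312*B^3*C^5 + 164046*B^4*C^4 + 48312*B^5*C^3 - 3364*B^6*C^2 + 264*B^7*C - 43*B^8

/-- expression for `Gc5` -/
def Gc5E (B C : Ex) : Ex := -C^10 - 66*B*C^9 - 1793*B^2*C^8 - 24024*B^3*C^7 - 163042*B^4*C^6 - 475596*B^5*C^5 - 80938*B^6*C^4 - 24024*B^7*C^3 + 2563*B^8*C^2 - 66*B^9*C + 11*B^10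

/-- expression for `Gp` -/
def GpE (B C t : Ex) : Ex := Ex.one + Gc1E B C * t + Gc2E B C * t ^ 2 + Gc3E B C * t ^ 3 + Gc4E B C * t ^ 4 + Gc5E B C * t ^ 5

/-- expression for `c4T` -/
def c4TE (B C : Ex) : Ex := B^4 - 12*B^3*C + 14*B^2*C^2 + 12*B*C^3 + C^4

/-- expression for `c6T` -/
def c6TE (B C : Ex) : Ex := -B^6 + 18*B^5*C - 75*B^4*C^2 - 75*B^2*C^4 - 18*B*C^5 - C^6

/-- expression for `Bt` -/
def BtE (B C t : Ex) : Ex := B * FpE B C t

/-- expression for `Ct` -/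
def CtE (B C t : Ex) : Ex := C * GpE B C t


/-- the difference of the two sides, as an expression in `B = x`, `C = y`, `t = z` -/
def idC4E : Ex :=
  C4pE (c4TE Ex.x Ex.y) (c6TE Ex.x Ex.y) Ex.z - c4TE (BtE Ex.x Ex.y Ex.z) (CtE Ex.x Ex.y Ex.z)

theorem idC4E_ev {R : Type*} [CommRing R] (B C t : R) :
    idC4E.ev B C t = C4p (c4T B C) (c6T B C) t - c4T (Bt B C t) (Ct B C t) := rfl

theorem idC4E_bd1 : idC4E.bd 1 1 1 < Nat.pow 2 96 := by decide +kernel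

theorem idC4E_bd2 : idC4E.bd (Nat.pow 2 96) 1 1 < Nat.pow 2 4320 := by decide +kernel

theorem idC4E_bd3 : idC4E.bd (Nat.pow 2 96) (Nat.pow 2 4320) 1 < Nat.pow 2 190200 := by
  decide +kernel

theorem idC4E_evZ : idC4E.evZ (Int.ofNat (Nat.pow 2 96)) (Int.ofNat (Nat.pow 2 4320))
    (Int.ofNat (Nat.pow 2 190200)) = 0 := by
  decide +kernel

theorem idC4E_eq_zero {R : Type*} [CommRing R] (B C t : R) : idC4E.ev B C t = 0 :=
  idC4E.ev_eq_zero _ _ _ idC4E_bd1 idC4E_bd2 idC4E_bd3 idC4E_evZ B C t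

end Kron

variable {R : Type*} [CommRing R]

theorem C4p_T (B C t : R) : C4p (c4T B C) (c6T B C) t = c4T (Bt B C t) (Ct B C t) :=
  sub_eq_zero.1 ((Kron.idC4E_ev B C t).symm.trans (Kron.idC4E_eq_zero B C t))

end Fermat.Agent.S52x
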