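import Fermat.Agent.S52.Defs

/-! The factorisation of the cusp form `Dp` in terms of the Tate parameters. -/

set_option autoImplicit false

namespace Fermat.Agent.S52x

variable {R : Type*} [CommRing R]

/-- the third factor -/
def Ep (B C t : R) : R := (1 - (B ^ 2 + C ^ 2) * t) ^ 2 - 180 * B ^ 2 * C ^ 2 * t ^ 2

set_option maxHeartbeats 0 in
theorem Dp_T (B C t : R) :
    Dp (c4T B C) (c6T B C) t = Ep B C t * Fp B C t * Gp B C t := by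
  simp only [Dp, c4T, c6T, Ep, Fp, Gp, Fc1, Fc2, Fc3, Fc4, Fc5, Gc1, Gc2, Gc3, Gc4, Gc5, dc2,
    dc3, dc4, dc5, dc6, dc7, dc8, dc9, dc10, dc11, dc12]
  ring

set_option maxHeartbeats 0 in
theorem quad_T (B C t : R) :
    (Bt B C t) ^ 2 - 11 * Bt B C t * Ct B C t - (Ct B C t) ^ 2 =
      (B ^ 2 - 11 * B * C - C ^ 2) * (Ep B C t) ^ 5 := by
  simp only [Bt, Ct, Ep, Fp, Gp, Fc1, Fc2, Fc3, Fc4, Fc5, Gc1, Gc2, Gc3, Gc4, Gc5]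
  ring

theorem dT_T (B C t : R) :
    dT (Bt B C t) (Ct B C t) = dT B C * Dp (c4T B C) (c6T B C) t ^ 5 := by
  have h := quad_T B C t
  rw [Dp_T]
  simp only [dT]
  rw [h]
  simp only [Bt, Ct]
  ring

/-- `P5` -/
def P5 (B C t : R) : R := (1 - (B ^ 2 + C ^ 2) * t) ^ 5 +
  50 * (1 - (B ^ 2 + C ^ 2) * t) ^ 3 * (6 * B * C * t) ^ 2 +
  125 * (1 - (B ^ 2 + C ^ 2) * t) * (6 * B * C * t) ^ 4

/-- `Q5` -/
def Q5 (B C t : R) : R := 5 * (1 - (B ^ 2 + C ^ 2) * t) ^ 4 * (6 * B * C * t) +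
  50 * (1 - (B ^ 2 + C ^ 2) * t) ^ 2 * (6 * B * C * t) ^ 3 +
  25 * (6 * B * C * t) ^ 5

set_option maxHeartbeats 0 in
theorem lin1 (B C t : R) : 2 * Bt B C t - 11 * Ct B C t =
    (2 * B - 11 * C) * P5 B C t + 25 * C * Q5 B C t := by
  simp only [Bt, Ct, Ep, Fp, Gp, Fc1, Fc2, Fc3, Fc4, Fc5, Gc1, Gc2, Gc3, Gc4, Gc5, P5, Q5]
  ring

set_option maxHeartbeats 0 in
theorem lin2 (B C t : R) : 5 * Ct B C t =
    (2 * B - 11 * C) * Q5 B C t + 5 * C * P5 B C t := by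
  simp only [Bt, Ct, Ep, Fp, Gp, Fc1, Fc2, Fc3, Fc4, Fc5, Gc1, Gc2, Gc3, Gc4, Gc5, P5, Q5]
  ring

theorem PQ5 (B C t : R) : P5 B C t ^ 2 - 5 * Q5 B C t ^ 2 = Ep B C t ^ 5 := by
  simp only [P5, Q5, Ep]
  ring

end Fermat.Agent.S52x
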