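import Mathlib.Algebra.MvPolynomial.CommRing
import Mathlib.Algebra.MvPolynomial.Eval
import Mathlib.Algebra.MvPolynomial.NoZeroDivisors
import Fermat.Agent.S52.Family
import Fermat.Agent.S52.IdC4
import Fermat.Agent.S52.IdD

/-! The identity expressing `c₆` of the Tate curve with parameters `B_t, C_t`. -/

set_option autoImplicit false

namespace Fermat.Agent.S52x

section

variable {R : Type*} [CommRing R] {S : Type*} [CommRing S] (f : R →+* S)

theorem rel_T (B C : R) : c4T B C ^ 3 - c6T B C ^ 2 = 1728 * dT B C := by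
  simp only [c4T, c6T, dT]; ring

theorem map_c4T (B C : R) : f (c4T B C) = c4T (f B) (f C) := by
  simp only [c4T, map_add, map_sub, map_mul, map_pow, map_ofNat]

theorem map_c6T (B C : R) : f (c6T B C) = c6T (f B) (f C) := by
  simp only [c6T, map_add, map_sub, map_neg, map_mul, map_pow, map_ofNat]

theorem map_Fp (B C t : R) : f (Fp B C t) = Fp (f B) (f C) (f t) := by
  simp only [Fp, Fc1, Fc2, Fc3, Fc4, Fc5, map_add, map_sub, map_neg, map_mul, map_pow, map_ofNat,
    map_one]

theorem map_Gp (B C t : R) : f (Gp B C t) = Gp (f B) (f C) (f t) := by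
  simp only [Gp, Gc1, Gc2, Gc3, Gc4, Gc5, map_add, map_sub, map_neg, map_mul, map_pow, map_ofNat,
    map_one]

theorem map_Bt (B C t : R) : f (Bt B C t) = Bt (f B) (f C) (f t) := by
  simp only [Bt, map_mul, map_Fp]

theorem map_Ct (B C t : R) : f (Ct B C t) = Ct (f B) (f C) (f t) := by
  simp only [Ct, map_mul, map_Gp]

theorem Bt_zero (B C : R) : Bt B C 0 = B := by simp [Bt, Fp]

theorem Ct_zero (B C : R) : Ct B C 0 = C := by simp [Ct, Gp]

end

open MvPolynomial in
theorem C6p_T_univ :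
    C6p (c4T (X 0 : MvPolynomial (Fin 3) ℤ) (X 1)) (c6T (X 0) (X 1)) (X 2) =
      c6T (Bt (X 0) (X 1) (X 2)) (Ct (X 0) (X 1) (X 2)) := by
  set B : MvPolynomial (Fin 3) ℤ := X 0 with hB
  set C : MvPolynomial (Fin 3) ℤ := X 1 with hC
  set t : MvPolynomial (Fin 3) ℤ := X 2 with ht
  have h1 := syzygy (c4T B C) (c6T B C) t
  rw [rel_T, C4p_T] at h1
  have h2 := rel_T (Bt B C t) (Ct B C t)
  rw [dT_T] at h2
  have h3 : (C6p (c4T B C) (c6T B C) t - c6T (Bt B C t) (Ct B C t)) *
      (C6p (c4T B C) (c6T B C) t + c6T (Bt B C t) (Ct B C t)) = 0 := by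
    linear_combination h2 - h1
  rcases mul_eq_zero.1 h3 with h | h
  · exact sub_eq_zero.1 h
  · exfalso
    have h4 := congrArg (MvPolynomial.eval₂Hom (Int.castRingHom ℤ) ![(0 : ℤ), 1, 0]) h
    rw [map_add, map_C6p, map_c4T, map_c6T, map_c6T, map_Bt, map_Ct] at h4
    simp only [hB, hC, ht, MvPolynomial.coe_eval₂Hom, MvPolynomial.eval₂_X] at h4
    simp [Bt_zero, Ct_zero, C6p_eq, c6T] at h4

theorem C6p_T {R : Type*} [CommRing R] (B C t : R) :
    C6p (c4T B C) (c6T B C) t = c6T (Bt B C t) (Ct B C t) := by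
  have h := congrArg (MvPolynomial.eval₂Hom (Int.castRingHom R) ![B, C, t]) C6p_T_univ
  rw [map_C6p, map_c4T, map_c6T, map_c6T, map_Bt, map_Ct] at h
  simpa using h

end Fermat.Agent.S52x
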