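import Fermat.Agent.S52.Place
import Fermat.Agent.S52.IdC6
import Fermat.Agent.S52.Tate
import Fermat.Agent.EC.RedFrob

/-! Transport of points of order five along the family. -/

set_option autoImplicit false

open Polynomial WeierstrassCurve

namespace Fermat.Agent.S52x

open Fermat.Agent.ECRed

section coords

variable {R : Type*} [CommRing R] {S : Type*} [CommRing S] (f : R →+* S)

/-- `x`-coordinate of the transported point (`i12` is the inverse of `12`). -/
def lX (i12 b₂ B C t : R) : R :=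
  i12 * ((Ct B C t - Bt B C t) ^ 2 - 4 * (Bt B C t * Ct B C t) - b₂)

/-- `y`-coordinate of the transported point (`i12` is the inverse of `12`). -/
def lY (i12 a₁ a₃ b₂ B C t : R) : R :=
  6 * i12 * (-(Bt B C t * Ct B C t ^ 2) - a₃ - lX i12 b₂ B C t * a₁)

theorem map_lX (i12 b₂ B C t : R) :
    f (lX i12 b₂ B C t) = lX (f i12) (f b₂) (f B) (f C) (f t) := by
  simp only [lX, map_mul, map_sub, map_pow, map_Bt, map_Ct, map_ofNat]

theorem map_lY (i12 a₁ a₃ b₂ B C t : R) :
    f (lY i12 a₁ a₃ b₂ B C t) = lY (f i12) (f a₁) (f a₃) (f b₂) (f B) (f C) (f t) := by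
  simp only [lY, map_mul, map_sub, map_neg, map_pow, map_Bt, map_Ct, map_ofNat, map_lX]

theorem TateData.map {W : WeierstrassCurve R} {x y n B C : R} (h : TateData W x y n B C) :
    TateData (W.map f) (f x) (f y) (f n) (f B) (f C) := by
  obtain ⟨h1, h2, h3, h4, h6⟩ := h
  refine ⟨?_, ?_, ?_, ?_, ?_⟩
  · simpa only [map_add, map_sub, map_mul, map_ofNat, WeierstrassCurve.map_a₁] using congrArg f h1
  · simpa only [map_add, map_sub, map_neg, map_mul, map_pow, map_ofNat, WeierstrassCurve.map_a₁,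
      WeierstrassCurve.map_a₂] using congrArg f h2
  · simpa only [map_add, map_sub, map_neg, map_mul, map_pow, map_ofNat, WeierstrassCurve.map_a₁,
      WeierstrassCurve.map_a₃] using congrArg f h3
  · simpa only [map_add, map_sub, map_neg, map_mul, map_pow, map_ofNat, map_zero,
      WeierstrassCurve.map_a₁, WeierstrassCurve.map_a₂, WeierstrassCurve.map_a₃,
      WeierstrassCurve.map_a₄] using congrArg f h4
  · simpa only [map_add, map_sub, map_neg, map_mul, map_pow, map_ofNat, map_zero,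
      WeierstrassCurve.map_a₁, WeierstrassCurve.map_a₂, WeierstrassCurve.map_a₃,
      WeierstrassCurve.map_a₄, WeierstrassCurve.map_a₆] using congrArg f h6

end coords

section field

variable {F : Type*} [Field F]

theorem twelve_ne_zero (h2 : (2 : F) ≠ 0) (h3 : (3 : F) ≠ 0) : (12 : F) ≠ 0 := by
  have : (12 : F) = 2 ^ 2 * 3 := by norm_num
  rw [this]; exact mul_ne_zero (pow_ne_zero _ h2) h3

theorem TateData.fam {W : WeierstrassCurve F} {x y n B C : F} (h2 : (2 : F) ≠ 0)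
    (h3 : (3 : F) ≠ 0) (h : TateData W x y n B C) (m : F) :
    TateData (famCurve W m) (lX 12⁻¹ W.b₂ B C (1728 * m)) (lY 12⁻¹ W.a₁ W.a₃ W.b₂ B C (1728 * m))
      ((Ct B C (1728 * m) - Bt B C (1728 * m) - W.a₁) / 2)
      (Bt B C (1728 * m)) (Ct B C (1728 * m)) := by
  have h12 := twelve_ne_zero h2 h3
  apply tateData_of_c h2 h3
  · rw [famCurve_c₄, h.c₄, h.c₆, C4p_T]
  · rw [famCurve_c₆, h.c₄, h.c₆, C6p_T]
  · rw [famCurve_a₁]; field_simp
  · rw [famCurve_b₂, lX]; field_simp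
  · rw [famCurve_a₁, famCurve_a₃, lY]
    have : (2 : F) * (6 * 12⁻¹) = 1 := by
      have : (2 : F) * (6 * 12⁻¹) = 12 * 12⁻¹ := by ring
      rw [this, mul_inv_cancel₀ h12]
    linear_combination (-(Bt B C (1728 * m) * Ct B C (1728 * m) ^ 2) - W.a₃ -
      lX 12⁻¹ W.b₂ B C (1728 * m) * W.a₁) * this

theorem TateData.lX_zero {W : WeierstrassCurve F} {x y n B C : F} (h2 : (2 : F) ≠ 0)
    (h3 : (3 : F) ≠ 0) (h : TateData W x y n B C) : lX 12⁻¹ W.b₂ B C 0 = x := by
  have h12 := twelve_ne_zero h2 h3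
  rw [lX, Bt_zero, Ct_zero, inv_mul_eq_iff_eq_mul₀ h12]
  have e2 : W.b₂ = W.a₁ ^ 2 + 4 * W.a₂ := rfl
  linear_combination -(W.a₁ + 2 * n + (C - B)) * h.h1 - 4 * h.h2 - e2

theorem TateData.lY_zero {W : WeierstrassCurve F} {x y n B C : F} (h2 : (2 : F) ≠ 0)
    (h3 : (3 : F) ≠ 0) (h : TateData W x y n B C) : lY 12⁻¹ W.a₁ W.a₃ W.b₂ B C 0 = y := by
  have h12 := twelve_ne_zero h2 h3
  rw [lY, h.lX_zero h2 h3, Bt_zero, Ct_zero]
  have : (2 : F) * (6 * 12⁻¹) = 1 := by
    have : (2 : F) * (6 * 12⁻¹) = 12 * 12⁻¹ := by ring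
    rw [this, mul_inv_cancel₀ h12]
  linear_combination y * this - (6 * 12⁻¹) * h.h3

end field

section rel

variable {F : Type*} [Field F]

/-- The relation between `5`-torsion points of `W` and of the curve `E' = famCurve W m`. -/
def Rel (W E' : WeierstrassCurve F) (m : F) (P : W.toAffine.Point) (Q : E'.toAffine.Point) :
    Prop :=
  (P = 0 ∧ Q = 0) ∨ ∃ (x y n B C : F) (h : W.toAffine.Nonsingular x y)
    (h' : E'.toAffine.Nonsingular (lX 12⁻¹ W.b₂ B C (1728 * m))
      (lY 12⁻¹ W.a₁ W.a₃ W.b₂ B C (1728 * m))), B ≠ 0 ∧ C ≠ 0 ∧ TateData W x y n B C ∧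
      P = Affine.Point.some x y h ∧ Q = Affine.Point.some _ _ h'

theorem Rel.zero {W E' : WeierstrassCurve F} {m : F} : Rel W E' m 0 0 := Or.inl ⟨rfl, rfl⟩

theorem Rel.eq_zero {W E' : WeierstrassCurve F} {m : F} {Q : E'.toAffine.Point}
    (h : Rel W E' m 0 Q) : Q = 0 := by
  rcases h with ⟨-, h⟩ | ⟨x, y, n, B, C, h, h', -, -, -, hP, -⟩
  · exact h
  · exact absurd hP.symm (Affine.Point.some_ne_zero h)

theorem Rel.eq_zero' {W E' : WeierstrassCurve F} {m : F} {P : W.toAffine.Point}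
    (h : Rel W E' m P 0) : P = 0 := by
  rcases h with ⟨h, -⟩ | ⟨x, y, n, B, C, h, h', -, -, -, -, hP⟩
  · exact h
  · exact absurd hP.symm (Affine.Point.some_ne_zero h')

variable [DecidableEq F]

theorem Rel.exists {W : WeierstrassCurve F} {m : F} (h2 : (2 : F) ≠ 0) (h3 : (3 : F) ≠ 0)
    (hΔ' : (famCurve W m).Δ ≠ 0) {P : W.toAffine.Point} (hP : 5 • P = 0) :
    ∃ Q : (famCurve W m).toAffine.Point, Rel W (famCurve W m) m P Q := by
  rcases P with _ | ⟨x, y, h⟩
  · exact ⟨0, Or.inl ⟨rfl, rfl⟩⟩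
  obtain ⟨n, B, C, hB, hC, hT⟩ := exists_tateData h hP
  have hT' := hT.fam h2 h3 m
  exact ⟨Affine.Point.some _ _ (hT'.nonsingular hΔ'), Or.inr ⟨x, y, n, B, C, h,
    hT'.nonsingular hΔ', hB, hC, hT, rfl, rfl⟩⟩

end rel

section main

variable {k : Type*} [Field k]

/-- The family over the affine line. -/
noncomputable def WX (W : WeierstrassCurve k) : WeierstrassCurve k[X] :=
  famCurve (W.map (C : k →+* k[X])) X

/-- The generic member of the family. -/
noncomputable def EK (W : WeierstrassCurve k) : WeierstrassCurve (FractionRing k[X]) :=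
  (WX W).map (algebraMap k[X] (FractionRing k[X]))

theorem WX_eval (W : WeierstrassCurve k) (a : k) : (WX W).map (evalRingHom a) = famCurve W a := by
  rw [WX, map_famCurve, WeierstrassCurve.map_map]
  have : (evalRingHom a).comp (C : k →+* k[X]) = RingHom.id k := by
    ext; simp
  rw [this, WeierstrassCurve.map_id]
  simp

theorem redCurve_EK (W : WeierstrassCurve k) (a : k) :
    RedCurve (evPR a) (EK W) (famCurve W a) := by
  rw [← WX_eval W a, EK]
  exact ⟨redTo_poly a _, redTo_poly a _, redTo_poly a _, redTo_poly a _, redTo_poly a _⟩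

theorem EK_Δ {W : WeierstrassCurve k} (hΔ : W.Δ ≠ 0) : (EK W).Δ ≠ 0 := by
  refine Δ_ne_zero_of_redCurve (redCurve_EK W 0) (isPlacePR 0) ?_
  rwa [famCurve_zero]

theorem redCurve_EK_zero (W : WeierstrassCurve k) : RedCurve (evPR (0 : k)) (EK W) W := by
  have := redCurve_EK W 0
  rwa [famCurve_zero] at this

theorem FK_two {k : Type*} [Field k] (n : ℕ) (h : (n : k) ≠ 0) :
    (n : FractionRing k[X]) ≠ 0 := by
  intro h0
  apply h
  have h1 : algebraMap k[X] (FractionRing k[X]) (C (n : k)) = 0 := by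
    rw [map_natCast, map_natCast]; exact h0
  have h2 := (map_eq_zero_iff _ (IsFractionRing.injective k[X] (FractionRing k[X]))).1 h1
  exact C_eq_zero.1 h2

/-- The lifted point. -/
theorem exists_lift [DecidableEq (FractionRing k[X])] {W : WeierstrassCurve k} (hΔ : W.Δ ≠ 0)
    (h2 : (2 : k) ≠ 0) (h3 : (3 : k) ≠ 0) (m : k) {P : W.toAffine.Point}
    {Q : (famCurve W m).toAffine.Point} (hPQ : Rel W (famCurve W m) m P Q) :
    ∃ L : (EK W).toAffine.Point, 5 • L = 0 ∧
      IsRed (E := EK W) (E' := famCurve W m)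
        (ValuationRing.valuation (PR m) (FractionRing k[X])) (evPR m) L Q ∧
      IsRed (E := EK W) (E' := W)
        (ValuationRing.valuation (PR (0 : k)) (FractionRing k[X])) (evPR (0 : k)) L P := by
  rcases hPQ with ⟨hP, hQ⟩ | ⟨x, y, n, B, C', h, h', hB, hC, hT, hP, hQ⟩
  · subst hP hQ
    exact ⟨0, by simp, isRed_zero_zero, isRed_zero_zero⟩
  subst hP hQ
  have h2K : (2 : FractionRing k[X]) ≠ 0 := by
    have := FK_two (k := k) 2 (by exact_mod_cast h2)
    exact_mod_cast this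
  have h3K : (3 : FractionRing k[X]) ≠ 0 := by
    have := FK_two (k := k) 3 (by exact_mod_cast h3)
    exact_mod_cast this
  set ι : k[X] →+* FractionRing k[X] := algebraMap k[X] (FractionRing k[X]) with hι
  have hEK : EK W = famCurve ((W.map (C : k →+* k[X])).map ι) (ι X) := by
    rw [EK, WX, map_famCurve]
  have hTK := ((hT.map (C : k →+* k[X])).map ι).fam h2K h3K (ι X)
  rw [← hEK] at hTK
  set pX : k[X] := lX (C 12⁻¹) (C W.b₂) (C B) (C C') (1728 * X) with hpX
  set pY : k[X] := lY (C 12⁻¹) (C W.a₁) (C W.a₃) (C W.b₂) (C B) (C C') (1728 * X) with hpY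
  have h12 : ι (C (12⁻¹ : k)) = (12 : FractionRing k[X])⁻¹ := by
    have : ι (C (12⁻¹ : k)) * 12 = 1 := by
      have h12 : (12 : FractionRing k[X]) = ι (C (12 : k)) := by
        rw [show (C (12 : k) : k[X]) = 12 from rfl, map_ofNat]
      rw [h12, ← map_mul, ← C_mul, inv_mul_cancel₀ (twelve_ne_zero h2 h3), C_1, map_one]
    exact eq_inv_of_mul_eq_one_left this
  have e1 : lX 12⁻¹ ((W.map (C : k →+* k[X])).map ι).b₂ (ι (C B)) (ι (C C')) (1728 * ι X) =
      ι pX := by
    rw [hpX, map_lX, h12]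
    simp only [WeierstrassCurve.map_b₂, map_mul, map_ofNat]
  have e2 : lY 12⁻¹ ((W.map (C : k →+* k[X])).map ι).a₁ ((W.map (C : k →+* k[X])).map ι).a₃
      ((W.map (C : k →+* k[X])).map ι).b₂ (ι (C B)) (ι (C C')) (1728 * ι X) = ι pY := by
    rw [hpY, map_lY, h12]
    simp only [WeierstrassCurve.map_b₂, WeierstrassCurve.map_a₁, WeierstrassCurve.map_a₃,
      map_mul, map_ofNat]
  rw [e1, e2] at hTK
  have hdT := hTK.Δ
  have hΔK := EK_Δ hΔ
  rw [hdT] at hΔK
  have hB' : Bt (ι (C B)) (ι (C C')) (1728 * ι X) ≠ 0 := fun h0 => hΔK (by rw [h0, dT]; ring)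
  have hC'' : Ct (ι (C B)) (ι (C C')) (1728 * ι X) ≠ 0 := fun h0 => hΔK (by rw [h0, dT]; ring)
  have hns := hTK.nonsingular (EK_Δ hΔ)
  refine ⟨Affine.Point.some _ _ hns, hTK.five_nsmul hB' hC'' hns, ?_, ?_⟩
  · rw [isRed_some_some_iff]
    have ex : lX 12⁻¹ W.b₂ B C' (1728 * m) = pX.eval m := by
      have := map_lX (evalRingHom m) (C 12⁻¹) (C W.b₂) (C B) (C C') (1728 * X)
      simp only [coe_evalRingHom, eval_C, eval_mul, eval_X, eval_ofNat] at this
      rw [hpX, this]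
    have ey : lY 12⁻¹ W.a₁ W.a₃ W.b₂ B C' (1728 * m) = pY.eval m := by
      have := map_lY (evalRingHom m) (C 12⁻¹) (C W.a₁) (C W.a₃) (C W.b₂) (C B) (C C') (1728 * X)
      simp only [coe_evalRingHom, eval_C, eval_mul, eval_X, eval_ofNat] at this
      rw [hpY, this]
    rw [ex, ey]
    exact ⟨redTo_poly m pX, redTo_poly m pY⟩
  · rw [isRed_some_some_iff]
    have ex : x = pX.eval 0 := by
      have := map_lX (evalRingHom (0 : k)) (C 12⁻¹) (C W.b₂) (C B) (C C') (1728 * X)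
      simp only [coe_evalRingHom, eval_C, eval_mul, eval_X, eval_ofNat, mul_zero] at this
      rw [hpX, this, hT.lX_zero h2 h3]
    have ey : y = pY.eval 0 := by
      have := map_lY (evalRingHom (0 : k)) (C 12⁻¹) (C W.a₁) (C W.a₃) (C W.b₂) (C B) (C C')
        (1728 * X)
      simp only [coe_evalRingHom, eval_C, eval_mul, eval_X, eval_ofNat, mul_zero] at this
      rw [hpY, this, hT.lY_zero h2 h3]
    have r1 := redTo_poly (0 : k) pX
    have r2 := redTo_poly (0 : k) pY
    rw [← ex] at r1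
    rw [← ey] at r2
    exact ⟨r1, r2⟩

/-- The relation is additive. -/
theorem Rel.add [DecidableEq k] {W : WeierstrassCurve k} (hΔ : W.Δ ≠ 0)
    (h2 : (2 : k) ≠ 0) (h3 : (3 : k) ≠ 0) (h5 : (5 : k) ≠ 0) {m : k}
    (hΔ' : (famCurve W m).Δ ≠ 0) {P P' : W.toAffine.Point}
    {Q Q' : (famCurve W m).toAffine.Point} (hP : 5 • P = 0) (hP' : 5 • P' = 0)
    (h : Rel W (famCurve W m) m P Q) (h' : Rel W (famCurve W m) m P' Q') :
    Rel W (famCurve W m) m (P + P') (Q + Q') := by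
  classical
  have hPP : 5 • (P + P') = 0 := by rw [nsmul_add, hP, hP', add_zero]
  obtain ⟨Q'', h''⟩ := Rel.exists h2 h3 hΔ' hPP
  obtain ⟨L, hL5, hLm, hL0⟩ := exists_lift hΔ h2 h3 m h
  obtain ⟨L', hL5', hLm', hL0'⟩ := exists_lift hΔ h2 h3 m h'
  obtain ⟨L'', hL5'', hLm'', hL0''⟩ := exists_lift hΔ h2 h3 m h''
  have h0 := hL0.add (redCurve_EK_zero W) (isPlacePR 0) hL0'
  have hLL : L + L' = L'' := by
    refine eq_of_isRed_of_nsmul (n := 5) (redCurve_EK_zero W) (isPlacePR 0)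
      (v_natCast_eq_one (isPlacePR 0) (by exact_mod_cast h5)) h0 hL0'' ?_
    rw [nsmul_sub, nsmul_add, hL5, hL5', hL5'']; simp
  have hm := hLm.add (redCurve_EK W m) (isPlacePR m) hLm'
  rw [hLL] at hm
  rw [IsRed.unique (isPlacePR m) hm hLm'']
  exact h''

end main

end Fermat.Agent.S52x
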