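import Mathlib
import Fermat.Agent.EC.RedPlace

/-! The place of `k(X)` attached to a point `a` of `k`. -/

set_option autoImplicit false

open Polynomial

namespace Fermat.Agent.S52x

open Fermat.Agent.ECRed

noncomputable section

variable {k : Type*} [Field k] (a : k)

/-- The prime ideal of polynomials vanishing at `a`. -/
abbrev PI : Ideal k[X] := RingHom.ker (evalRingHom a)

theorem PI_ne_bot : PI a ≠ ⊥ := by
  intro h
  have : (X - C a : k[X]) ∈ PI a := by simp [PI, RingHom.mem_ker]
  rw [h] at this
  exact X_sub_C_ne_zero a (by simpa using this)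

instance instPrimePI : (PI a).IsPrime := RingHom.ker_isPrime _

/-- The local ring of the affine line at `a`. -/
abbrev PR : Type _ := Localization.AtPrime (PI a)

theorem primeCompl_le : (PI a).primeCompl ≤ nonZeroDivisors k[X] :=
  (PI a).primeCompl_le_nonZeroDivisors

instance instAlgebraPR : Algebra (PR a) (FractionRing k[X]) :=
  IsLocalization.localizationAlgebraOfSubmonoidLe (PR a) (FractionRing k[X])
    (PI a).primeCompl (nonZeroDivisors k[X]) (primeCompl_le a)

instance instTowerPR : IsScalarTower k[X] (PR a) (FractionRing k[X]) :=
  IsLocalization.localization_isScalarTower_of_submonoid_le (PR a) (FractionRing k[X])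
    (PI a).primeCompl (nonZeroDivisors k[X]) (primeCompl_le a)

instance instFracPR : IsFractionRing (PR a) (FractionRing k[X]) :=
  IsFractionRing.isFractionRing_of_isDomain_of_isLocalization (PI a).primeCompl (PR a)
    (FractionRing k[X])

instance instDVRPR : IsDiscreteValuationRing (PR a) :=
  IsLocalization.AtPrime.isDiscreteValuationRing_of_dedekind_domain k[X] (PI_ne_bot a) (PR a)

/-- evaluation at `a` -/
def evPR : PR a →+* k :=
  IsLocalization.lift (M := (PI a).primeCompl) (g := evalRingHom a) (by
    intro y
    have := y.2
    rw [isUnit_iff_ne_zero]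
    intro h
    exact this (RingHom.mem_ker.2 h))

theorem evPR_algebraMap (p : k[X]) : evPR a (algebraMap k[X] (PR a) p) = p.eval a := by
  rw [evPR, IsLocalization.lift_eq]; rfl

instance : IsLocalHom (evPR a) := by
  constructor
  intro x hx
  obtain ⟨p, s, rfl⟩ := IsLocalization.exists_mk'_eq (PI a).primeCompl x
  rw [IsLocalization.AtPrime.isUnit_mk'_iff (PR a) (PI a)]
  intro hp
  have h : evPR a (IsLocalization.mk' (PR a) p s) = 0 := by
    have h1 : evPR a (IsLocalization.mk' (PR a) p s) * evPR a (algebraMap k[X] (PR a) s) = 0 := by
      rw [← map_mul, IsLocalization.mk'_spec, evPR_algebraMap]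
      exact hp
    rcases mul_eq_zero.1 h1 with h | h
    · exact h
    · rw [evPR_algebraMap] at h
      exact absurd (RingHom.mem_ker.2 h) s.2
  rw [h] at hx
  exact not_isUnit_zero hx

theorem isPlacePR :
    IsPlace (ValuationRing.valuation (PR a) (FractionRing k[X])) (evPR a) where
  integers :=
    { hom_inj := IsFractionRing.injective _ _
      map_le_one := fun r => by
        have := (ValuationRing.mem_integer_iff (PR a) (FractionRing k[X])
          (algebraMap _ _ r)).2 ⟨r, rfl⟩
        exact this
      exists_of_le_one := fun {r} hr => by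
        exact (ValuationRing.mem_integer_iff (PR a) (FractionRing k[X]) r).1 hr }
  isLocalHom := inferInstance

theorem redTo_poly (p : k[X]) :
    RedTo (evPR a) (algebraMap k[X] (FractionRing k[X]) p) (p.eval a) :=
  ⟨algebraMap k[X] (PR a) p, (IsScalarTower.algebraMap_apply _ _ _ p).symm, evPR_algebraMap a p⟩

end

end Fermat.Agent.S52x
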